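import Fermat.Agent.TwoAdic.Semistable.Result
import Fermat.Agent.RT.Frey.Inputs
import Fermat.Agent.HeckeDuality.DeligneSerre
import Fermat.Agent.IntegralStructure.Main
import Fermat.Agent.Lifting.Eigen.Supported

/-!
# The statements on residual modularity at `3` and lifting, from modularity of semistable models

The two-adic theorem with lifting makes every semistable model modular at its conductor level.
This gives the statements of S50 and S59, and S46 by depleting the form and lifting its reduction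
modulo `3` to an eigensystem with character `χ₋₃`.
-/

set_option autoImplicit false

noncomputable section

open WeierstrassCurve CongruenceSubgroup ModularFormClass EisensteinWeightOne

namespace Fermat.Agent.TwoAdic.Semistable

/-- The statement of S59. -/
theorem liftingInput (htwo : Top.TwoAdicInput) (hlift : Top.LiftingSquarefreeInput) :
    RT.Frey.LiftingInput :=
  fun _ _ _ hΔ hW _ _ _ _ _ _ => exact_semistable htwo hlift hΔ hW

/-- The statement of S50. -/
theorem residualThreeInput (htwo : Top.TwoAdicInput) (hlift : Top.LiftingSquarefreeInput) :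
    RT.Frey.ResidualThreeInput := by
  intro W hΔ hW _
  obtain ⟨N, hN, hsq, hsupp, hmod⟩ := exact_semistable htwo hlift hΔ hW
  have hsq' : ∀ q : ℕ, q.Prime → ¬ q ^ 2 ∣ N := fun q hq h =>
    hq.not_isUnit (hsq q (by rwa [← sq]))
  exact ⟨N, hN, Top.residually_modular_of_congr Nat.prime_three hsupp hmod
      fun ℓ _ _ _ _ => by rw [sub_self]; exact dvd_zero _,
    fun q hq _ h => hsq' q hq ((pow_dvd_pow q (by norm_num)).trans h),
    fun h => absurd h (hsq' 3 Nat.prime_three)⟩

/-- The values at powers of `p` of the eigensystem with eigenvalues `c` and weights `e`. -/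
def primePowSeq {R : Type*} [CommRing R] (e c : ℕ → R) (p : ℕ) : ℕ → R
  | 0 => 1
  | 1 => c p
  | k + 2 => c p * primePowSeq e c p (k + 1) - e p * primePowSeq e c p k

/-- The eigensystem with eigenvalues `c` and weights `e`. -/
def eigenSeq {R : Type*} [CommRing R] (e c : ℕ → R) (n : ℕ) : R :=
  if n = 0 then 0 else n.factorization.prod (primePowSeq e c)

section Seq

variable {R : Type*} [CommRing R] (e c : ℕ → R)

theorem eigenSeq_zero : eigenSeq e c 0 = 0 := if_pos rfl

theorem eigenSeq_one : eigenSeq e c 1 = 1 := by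
  simp [eigenSeq]

theorem eigenSeq_mul {m n : ℕ} (h : m.Coprime n) :
    eigenSeq e c (m * n) = eigenSeq e c m * eigenSeq e c n := by
  rcases eq_or_ne m 0 with rfl | hm
  · simp [eigenSeq_zero]
  rcases eq_or_ne n 0 with rfl | hn
  · simp [eigenSeq_zero]
  rw [eigenSeq, if_neg (mul_ne_zero hm hn), eigenSeq, if_neg hm, eigenSeq, if_neg hn,
    Nat.factorization_mul_of_coprime h,
    Finsupp.prod_add_index_of_disjoint h.disjoint_primeFactors]

theorem eigenSeq_pow {p : ℕ} (hp : p.Prime) (k : ℕ) :
    eigenSeq e c (p ^ k) = primePowSeq e c p k := by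
  rw [eigenSeq, if_neg (pow_ne_zero _ hp.ne_zero), hp.factorization_pow,
    Finsupp.prod_single_index rfl]

theorem isEigensystem_eigenSeq : FormalHecke.IsEigensystem e (eigenSeq e c) := by
  refine ⟨eigenSeq_one e c, fun ℓ hℓ n => ?_⟩
  rcases eq_or_ne n 0 with rfl | hn
  · simp [eigenSeq_zero]
  obtain ⟨k, m, hm, rfl⟩ := Nat.exists_eq_pow_mul_and_not_dvd hn ℓ hℓ.ne_one
  have hc : ∀ i, (ℓ ^ i).Coprime m := fun i => (hℓ.coprime_iff_not_dvd.2 hm).pow_left i
  have e1 : eigenSeq e c ℓ = c ℓ := by
    rw [← pow_one ℓ, eigenSeq_pow e c hℓ, pow_one]; rfl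
  rw [← mul_assoc, ← pow_succ', eigenSeq_mul e c (hc _), eigenSeq_mul e c (hc _),
    eigenSeq_pow e c hℓ, eigenSeq_pow e c hℓ, e1]
  cases k with
  | zero =>
    rw [pow_zero, one_mul, if_neg hm]
    simp [primePowSeq]
  | succ j =>
    have h1 : ℓ ∣ ℓ ^ (j + 1) * m := dvd_mul_of_dvd_left (dvd_pow_self ℓ j.succ_ne_zero) m
    have h2 : ℓ ^ (j + 1) * m / ℓ = ℓ ^ j * m := by
      rw [pow_succ', mul_assoc, Nat.mul_div_cancel_left _ hℓ.pos]
    rw [if_pos h1, h2, eigenSeq_mul e c (hc _), eigenSeq_pow e c hℓ, primePowSeq]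
    ring

end Seq

theorem hasIntegralBasis (N : ℕ) [NeZero N] : CuspForm.HasIntegralBasis N := by
  refine top_le_iff.1 ((IntegralStructure.hasIntegralStructure N 2 :
    CuspForm.HasIntegralStructure N 2) ▸ Submodule.span_le.2 fun f hf => ?_)
  refine Submodule.subset_span fun n => ?_
  obtain ⟨m, hm⟩ := (HeckeDuality.mem_intLattice_iff f).1 hf n
  exact Subring.mem_bot.2 ⟨m, hm.symm⟩

/-- The statement of S46. -/
theorem exists_lattice_realized (htwo : Top.TwoAdicInput) (hlift : Top.LiftingSquarefreeInput)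
    (W : WeierstrassCurve ℤ) (hΔ : W.Δ ≠ 0) (hW : W.IsSemistableModel) :
    ∃ (N : ℕ) (_ : NeZero N) (a : ℕ → ℤ),
      CuspForm.HasIntegralBasis N ∧
      FormalHecke.IsEigensystem
        (fun ℓ => if ℓ ∣ N then 0 else ((chiNegThree ℓ : ℤ) : ℤ)) a ∧
      CuspForm.IsLatticeRealized N a ∧
      (∀ q : ℕ, q.Prime → q ≠ 3 → ¬ q ^ 3 ∣ N) ∧
      ∀ ℓ : ℕ, ℓ.Prime → W.IsGoodPrimeFor ℓ → ¬ ℓ ∣ N → ℓ ≠ 3 →
        (3 : ℤ) ∣ (a ℓ - W.apOfModel ℓ) := by
  classical
  obtain ⟨N, hN, hsq, hsupp, f, hf, hfW⟩ := exact_semistable htwo hlift hΔ hW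
  have : NeZero N := ⟨hN.ne'⟩
  have : NeZero (N * N) := ⟨mul_ne_zero hN.ne' hN.ne'⟩
  obtain ⟨F, hF⟩ := Lifting.Eigen.exists_deplete_form (r := N) dvd_rfl f
  set e : ℕ → ℤ := fun ℓ => if ℓ ∣ N * N then 0 else chiNegThree ℓ with he
  set c : ℕ → ℤ := fun p => if p ∣ N then 0 else W.apOfModel p with hc
  set a := eigenSeq e c with ha
  have key : ∀ n, ∃ m : ℤ, qCoeff F n = (m : ℂ) ∧ (3 : ℤ) ∣ m - a n := by
    intro n
    induction n using Nat.recOnPosPrimePosCoprime with
    | zero => exact ⟨0, by simp [Newforms.qCoeff_zero_eq], by simp [ha, eigenSeq_zero]⟩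
    | one => exact ⟨1, by simp [hF, hf.qCoeff_one], by simp [ha, eigenSeq_one]⟩
    | coprime x y _ _ hxy ihx ihy =>
      obtain ⟨mx, hmx, hx⟩ := ihx
      obtain ⟨my, hmy, hy⟩ := ihy
      refine ⟨mx * my, ?_, ?_⟩
      · rw [hF] at hmx hmy ⊢
        rw [Int.cast_mul, ← hmx, ← hmy, hf.qCoeff_mul_of_coprime x y hxy]
        by_cases h : (x * y).Coprime N
        · rw [if_pos h, if_pos (Nat.coprime_mul_iff_left.1 h).1,
            if_pos (Nat.coprime_mul_iff_left.1 h).2]
        · rw [if_neg h]
          split_ifs with h1 h2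
          · exact absurd (Nat.coprime_mul_iff_left.2 ⟨h1, h2⟩) h
          all_goals simp
      · rw [ha, eigenSeq_mul e c hxy]
        rw [show mx * my - eigenSeq e c x * eigenSeq e c y
          = (mx - eigenSeq e c x) * my + eigenSeq e c x * (my - eigenSeq e c y) by ring]
        exact dvd_add (hx.mul_right _) (hy.mul_left _)
    | prime_pow p r hp hr =>
      rw [hF, ha, eigenSeq_pow e c hp]
      by_cases hpN : p ∣ N
      · have h0 : ∀ j, primePowSeq e c p (j + 1) = 0 := fun j => by
          cases j with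
          | zero => simp [primePowSeq, hc, hpN]
          | succ i => simp [primePowSeq, hc, he, hpN, dvd_mul_of_dvd_left hpN N]
        obtain ⟨j, rfl⟩ := Nat.exists_eq_add_one.2 hr
        refine ⟨0, ?_, by simp [h0 j]⟩
        rw [if_neg, Int.cast_zero]
        exact fun h => hp.coprime_iff_not_dvd.1 ((Nat.coprime_pow_left_iff hr _ _).1 h) hpN
      rw [if_pos (((hp.coprime_iff_not_dvd).2 hpN).pow_left r)]
      have hgood : W.IsGoodPrimeFor p := fun h => hpN ((hsupp p hp).2 h)
      clear hr
      induction r using Nat.strong_induction_on with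
      | _ r ih =>
        match r with
        | 0 => exact ⟨1, by simp [hf.qCoeff_one], by simp [primePowSeq]⟩
        | 1 => exact ⟨W.apOfModel p, by rw [pow_one]; exact hfW p hp hgood hpN,
            by simp [primePowSeq, hc, hpN]⟩
        | r + 2 =>
          obtain ⟨m₁, hm₁, h₁⟩ := ih (r + 1) (by omega)
          obtain ⟨m₀, hm₀, h₀⟩ := ih r (by omega)
          refine ⟨W.apOfModel p * m₁ - p * m₀, ?_, ?_⟩
          · rw [hf.qCoeff_prime_pow_of_not_dvd p r hp hpN, hm₁, hm₀, hfW p hp hgood hpN]
            push_cast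
            ring
          · have hep : e p = chiNegThree p := by
              simp [he, hp.dvd_mul, hpN]
            have hcp : c p = W.apOfModel p := by simp [hc, hpN]
            rw [primePowSeq, hep, hcp]
            rw [show W.apOfModel p * m₁ - (p : ℤ) * m₀ - (W.apOfModel p * primePowSeq e c p (r + 1)
                - chiNegThree p * primePowSeq e c p r)
              = W.apOfModel p * (m₁ - primePowSeq e c p (r + 1))
                - (p : ℤ) * (m₀ - primePowSeq e c p r)
                - ((p : ℤ) - chiNegThree p) * primePowSeq e c p r by ring]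
            exact dvd_sub (dvd_sub (h₁.mul_left _) (h₀.mul_left _))
              ((HeckeDuality.chiNegThree_congr p).mul_right _)
  choose af haf hcong using key
  refine ⟨N * N, inferInstance, a, hasIntegralBasis _, isEigensystem_eigenSeq e c, ?_, ?_, ?_⟩
  · refine ⟨F, fun n => Subring.mem_bot.2 ⟨af n, (haf n).symm⟩, af, fun n => (haf n).symm,
      fun n => ?_⟩
    have h2 := HeckeDuality.bridgeProduct_congr a n
    rw [show af n - (bridgeProduct a).coeff n = (af n - a n) - ((bridgeProduct a).coeff n - a n) by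
      ring]
    exact dvd_sub (hcong n) h2
  · intro q hq _ h
    have h1 := (hq.pow_dvd_iff_le_factorization (mul_ne_zero hN.ne' hN.ne')).1 h
    rw [Nat.factorization_mul hN.ne' hN.ne', Finsupp.add_apply] at h1
    have := hsq.natFactorization_le_one q
    omega
  · intro ℓ hℓ _ hℓN _
    have : ¬ ℓ ∣ N := fun h => hℓN (dvd_mul_of_dvd_left h N)
    rw [ha, ← pow_one ℓ, eigenSeq_pow e c hℓ, pow_one]
    simp [primePowSeq, hc, this]

end Fermat.Agent.TwoAdic.Semistable

end
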