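import Fermat.Agent.Switch.Forms

/-!
# The icosahedral forms at the covariant point `(-fDs, fDr)`

The values are polynomials in `fC4` and `fC6` (times `fD` for `fD`). At a curve with good
supersingular reduction at `2` and nonzero trace this point gives a member of the family with
multiplicative reduction at `2`.
-/

set_option autoImplicit false

namespace Fermat.Agent.TwoAdic.Semistable

open Switch

variable {R : Type*} [CommRing R]

/-- `fD (-fDs, fDr) / fD` in terms of `a = fC4`, `b = fC6`. -/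
def covD (a b : R) : R := 102400 * b ^ 4 - 193536 * a ^ 3 * b ^ 2 + 91125 * a ^ 6

/-- `fC4 (-fDs, fDr)` in terms of `a = fC4`, `b = fC6`. -/
def covC4 (a b : R) : R :=
  -180224000 * a ^ 2 * b ^ 6 + 544997376 * a ^ 5 * b ^ 4 - 549301500 * a ^ 8 * b ^ 2
    + 184528125 * a ^ 11

/-- `fC6 (-fDs, fDr)` in terms of `a = fC4`, `b = fC6`. -/
def covC6 (a b : R) : R :=
  3355443200000 * b ^ 11 - 17532190720000 * a ^ 3 * b ^ 9 + 36574189977600 * a ^ 6 * b ^ 7
    - 38083944628224 * a ^ 9 * b ^ 5 + 19796866155000 * a ^ 12 * b ^ 3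
    - 4110363984375 * a ^ 15 * b

theorem fD_cov (r s : R) :
    fD (-fDs r s) (fDr r s) = fD r s * covD (fC4 r s) (fC6 r s) := by
  simp only [covD, fD, fC4, fC6, fDr, fDs]; ring

theorem fC4_cov (r s : R) :
    fC4 (-fDs r s) (fDr r s) = covC4 (fC4 r s) (fC6 r s) := by
  simp only [covC4, fC4, fC6, fDr, fDs]; ring

theorem fC6_cov (r s : R) :
    fC6 (-fDs r s) (fDr r s) = covC6 (fC4 r s) (fC6 r s) := by
  simp only [covC6, fC4, fC6, fDr, fDs]; ring

theorem covC4_cube_sub (a b : R) :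
    covC4 a b ^ 3 - covC6 a b ^ 2 = (a ^ 3 - b ^ 2) * covD a b ^ 5 := by
  simp only [covC4, covC6, covD]; ring

/-- The 2-adic shape of the covariant values when `a = 16 * odd`, `b = 8 * odd`. -/
theorem cov_two {x y : ℤ} :
    covD (16 * x) (8 * y) = 2 ^ 24 * (25 * y ^ 4 - 3024 * x ^ 3 * y ^ 2 + 91125 * x ^ 6) ∧
    covC4 (16 * x) (8 * y) = 2 ^ 40 * (-11000 * x ^ 2 * y ^ 6 + 2128896 * x ^ 5 * y ^ 4
      - 137325375 * x ^ 8 * y ^ 2 + 2952450000 * x ^ 11) ∧
    covC6 (16 * x) (8 * y) = 2 ^ 60 * (25000 * y ^ 11 - 8360000 * x ^ 3 * y ^ 9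
      + 1116155700 * x ^ 6 * y ^ 7 - 74382704352 * x ^ 9 * y ^ 5
      + 2474608269375 * x ^ 12 * y ^ 3 - 32882911875000 * x ^ 15 * y) := by
  simp only [covD, covC4, covC6]
  refine ⟨?_, ?_, ?_⟩ <;> ring

end Fermat.Agent.TwoAdic.Semistable
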