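import Mathlib
import Fermat.Agent.Switch.Forms
import Fermat.Agent.Arith.Places

/-!
# Integral values of an invariant form on a line

For a form `f` of degree `d` whose values at `μ r + τ w` are rational, the values are integral and
congruent to `μ ^ d f(r)` modulo a large odd modulus and to `τ ^ d f(w)` modulo a large power of
`2`, as soon as `μ` is a large power of `2` and `τ` a multiple of a suitable odd number.
-/

set_option autoImplicit false

namespace Fermat.Agent.TwoAdic.Semistable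

open Switch

local notation "Qb" => AlgebraicClosure ℚ
local notation "Zb" => integralClosure ℤ (AlgebraicClosure ℚ)

theorem exists_int_of_fixed {z : Qb} (hz : IsIntegral ℤ z) (h : ∀ σ : Qb ≃ₐ[ℚ] Qb, σ z = z) :
    ∃ n : ℤ, (n : Qb) = z := by
  have : IsGalois ℚ Qb := Arith.qBar_isGalois
  obtain ⟨q, hq⟩ := IntermediateField.mem_bot.mp ((InfiniteGalois.mem_bot_iff_fixed _).mpr h)
  rw [← hq] at hz
  obtain ⟨n, hn⟩ := IsIntegrallyClosed.isIntegral_iff.mp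
    ((isIntegral_algebraMap_iff (algebraMap ℚ Qb).injective).mp hz)
  exact ⟨n, by rw [← hq, ← hn]; simp⟩

theorem intCast_dvd_iff {m d : ℤ} (hm : m ≠ 0) : ((m : Zb)) ∣ (d : Zb) → m ∣ d := by
  rintro ⟨z, hz⟩
  have hz' : (d : Qb) = (m : Qb) * (z : Qb) := by
    have := congrArg (fun x : Zb => (x : Qb)) hz
    push_cast at this
    exact this
  have hm' : (m : Qb) ≠ 0 := Int.cast_ne_zero.mpr hm
  obtain ⟨n, hn⟩ := exists_int_of_fixed z.2 fun σ => by
    have := congrArg σ hz'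
    rw [map_mul, map_intCast, map_intCast, hz'] at this
    exact mul_left_cancel₀ hm' this.symm
  exact ⟨n, by rw [← hn] at hz'; exact_mod_cast hz'⟩

theorem exists_multiple_integral (r s : Qb) :
    ∃ N : ℤ, N ≠ 0 ∧ IsIntegral ℤ ((N : Qb) * r) ∧ IsIntegral ℤ ((N : Qb) * s) := by
  have halg : ∀ z : Qb, IsAlgebraic ℤ z := fun z =>
    (IsFractionRing.isAlgebraic_iff ℤ ℚ Qb).mpr (Algebra.IsAlgebraic.isAlgebraic z)
  obtain ⟨a, ha, ha'⟩ := (halg r).exists_integral_multiple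
  obtain ⟨b, hb, hb'⟩ := (halg s).exists_integral_multiple
  rw [zsmul_eq_mul] at ha' hb'
  refine ⟨a * b, mul_ne_zero ha hb, ?_, ?_⟩
  · rw [Int.cast_mul, mul_comm (a : Qb), mul_assoc]
    exact (isIntegral_algebraMap (R := ℤ) (A := Qb) (x := b)).mul ha'
  · rw [Int.cast_mul, mul_assoc]
    exact (isIntegral_algebraMap (R := ℤ) (A := Qb) (x := a)).mul hb'

theorem dvd_fC4_sub {R : Type*} [CommRing R] {m x y x' y' : R} (hx : m ∣ x' - x)
    (hy : m ∣ y' - y) : m ∣ fC4 x' y' - fC4 x y := by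
  rw [← Ideal.mem_span_singleton, ← Ideal.Quotient.eq_zero_iff_mem] at hx hy ⊢
  rw [map_sub, sub_eq_zero] at hx hy
  rw [map_sub, map_fC4, map_fC4, hx, hy, sub_self]

theorem dvd_fC6_sub {R : Type*} [CommRing R] {m x y x' y' : R} (hx : m ∣ x' - x)
    (hy : m ∣ y' - y) : m ∣ fC6 x' y' - fC6 x y := by
  rw [← Ideal.mem_span_singleton, ← Ideal.Quotient.eq_zero_iff_mem] at hx hy ⊢
  rw [map_sub, sub_eq_zero] at hx hy
  rw [map_sub, map_fC6, map_fC6, hx, hy, sub_self]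

variable {d : ℕ} (f : Qb → Qb → Qb) (g : Zb → Zb → Zb)

/-- The scaled value as an integer with its two congruences. -/
theorem exists_scaled_value (hg : ∀ x y : Zb, ((g x y : Zb) : Qb) = f x y)
    (hsmul : ∀ c x y : Qb, f (c * x) (c * y) = c ^ d * f x y)
    (hcongr : ∀ m x y x' y' : Zb, m ∣ x' - x → m ∣ y' - y → m ∣ g x' y' - g x y)
    {N : ℤ} {r s w₁ w₂ : Qb} (hr : IsIntegral ℤ ((N : Qb) * r)) (hs : IsIntegral ℤ ((N : Qb) * s))
    (hw₁ : IsIntegral ℤ ((N : Qb) * w₁)) (hw₂ : IsIntegral ℤ ((N : Qb) * w₂))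
    {A B : ℤ} (hA : f r s = A) (hB : f w₁ w₂ = B) {μ τ : ℤ} (hμ : μ ≠ 0) (hτ : τ ≠ 0)
    (hfix : ∀ σ : Qb ≃ₐ[ℚ] Qb, σ (f (μ * r + τ * w₁) (μ * s + τ * w₂))
      = f (μ * r + τ * w₁) (μ * s + τ * w₂)) :
    ∃ X : ℤ, (X : Qb) = (N : Qb) ^ d * f (μ * r + τ * w₁) (μ * s + τ * w₂) ∧
      τ ∣ X - μ ^ d * N ^ d * A ∧ μ ∣ X - τ ^ d * N ^ d * B := by
  set R₁ : Zb := ⟨_, hr⟩ with hR₁
  set R₂ : Zb := ⟨_, hs⟩ with hR₂
  set T₁ : Zb := ⟨_, hw₁⟩ with hT₁
  set T₂ : Zb := ⟨_, hw₂⟩ with hT₂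
  set G : Zb := g (μ * R₁ + τ * T₁) (μ * R₂ + τ * T₂) with hG
  have eG : (G : Qb) = (N : Qb) ^ d * f (μ * r + τ * w₁) (μ * s + τ * w₂) := by
    rw [hG, hg, ← hsmul]
    push_cast [hR₁, hR₂, hT₁, hT₂]
    congr 1 <;> ring
  obtain ⟨X, hX⟩ := exists_int_of_fixed G.2 fun σ => by
    rw [eG, map_mul, map_pow, map_intCast, hfix σ]
  have eX : (X : Zb) = G := Subtype.ext (by push_cast; exact hX)
  refine ⟨X, hX.trans eG, ?_, ?_⟩
  · refine intCast_dvd_iff hτ ?_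
    have e : ((μ ^ d * N ^ d * A : ℤ) : Zb) = g (μ * R₁) (μ * R₂) := by
      apply Subtype.ext
      rw [hg]
      push_cast [hR₁, hR₂]
      rw [← mul_assoc, ← mul_assoc, hsmul, hA]
      ring
    rw [Int.cast_sub, eX, e]
    exact hcongr _ _ _ _ _ ⟨T₁, by ring⟩ ⟨T₂, by ring⟩
  · refine intCast_dvd_iff hμ ?_
    have e : ((τ ^ d * N ^ d * B : ℤ) : Zb) = g (τ * T₁) (τ * T₂) := by
      apply Subtype.ext
      rw [hg]
      push_cast [hT₁, hT₂]
      rw [← mul_assoc, ← mul_assoc, hsmul, hB]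
      ring
    rw [Int.cast_sub, eX, e]
    exact hcongr _ _ _ _ _ ⟨R₁, by ring⟩ ⟨R₂, by ring⟩

/-- The value itself is integral for `μ` a large power of `2` and `τ` a multiple of a large odd
number, and it has the same two congruences. -/
theorem exists_value_congr {X A B : ℤ} {e k K : ℕ} {o m τ : ℤ} (ho : Odd o) (hm : Odd m)
    (hk : d * e + K ≤ k) (hτ : o ^ d * m ∣ τ)
    (h₁ : τ ∣ X - (2 ^ k) ^ d * (2 ^ e * o) ^ d * A)
    (h₂ : (2 : ℤ) ^ k ∣ X - τ ^ d * (2 ^ e * o) ^ d * B) :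
    ∃ V : ℤ, X = (2 ^ e * o) ^ d * V ∧ m ∣ V - (2 ^ k) ^ d * A ∧
      (2 : ℤ) ^ K ∣ V - τ ^ d * B := by
  have cop : ∀ {o : ℤ}, Odd o → ∀ i j : ℕ, IsCoprime ((2 : ℤ) ^ i) (o ^ j) := fun {o} h i j => by
    refine IsCoprime.pow ((Int.prime_two.coprime_iff_not_dvd).mpr ?_)
    rw [Int.two_dvd_ne_zero]
    exact Int.odd_iff.mp h
  have d1 : o ^ d ∣ X := by
    have := ((dvd_mul_right _ m).trans hτ).trans h₁
    rw [dvd_sub_left] at this
    · exact this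
    · exact Dvd.dvd.mul_right (Dvd.dvd.mul_left (by rw [mul_pow]; exact dvd_mul_left _ _) _) _
  have d2 : (2 : ℤ) ^ (d * e) ∣ X := by
    have := (pow_dvd_pow (2 : ℤ) (show d * e ≤ k by omega)).trans h₂
    rw [dvd_sub_left] at this
    · exact this
    · refine Dvd.dvd.mul_right (Dvd.dvd.mul_left ?_ _) _
      rw [mul_pow, ← pow_mul, mul_comm e d]
      exact dvd_mul_right _ _
  obtain ⟨V, hV⟩ := (cop ho (d * e) d).mul_dvd d2 d1
  have hN : ((2 : ℤ) ^ e * o) ^ d = 2 ^ (d * e) * o ^ d := by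
    rw [mul_pow, ← pow_mul, mul_comm e d]
  refine ⟨V, by rw [hN]; exact hV, ?_, ?_⟩
  · have h := hτ.trans h₁
    rw [hV, hN, show 2 ^ (d * e) * o ^ d * V - (2 ^ k) ^ d * (2 ^ (d * e) * o ^ d) * A
      = o ^ d * ((2 : ℤ) ^ (d * e) * (V - (2 ^ k) ^ d * A)) by ring] at h
    have ho' : o ^ d ≠ 0 := pow_ne_zero _ (by rintro rfl; simp at ho)
    have h := (mul_dvd_mul_iff_left ho').mp h
    refine IsCoprime.dvd_of_dvd_mul_left ?_ h
    have := cop hm (d * e) 1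
    rw [pow_one] at this
    exact this.symm
  · have h := (pow_dvd_pow (2 : ℤ) hk).trans h₂
    rw [hV, hN, pow_add, show 2 ^ (d * e) * o ^ d * V - τ ^ d * (2 ^ (d * e) * o ^ d) * B
      = (2 : ℤ) ^ (d * e) * (o ^ d * (V - τ ^ d * B)) by ring] at h
    exact (cop ho K d).dvd_of_dvd_mul_left ((mul_dvd_mul_iff_left (pow_ne_zero _ two_ne_zero)).mp h)

end Fermat.Agent.TwoAdic.Semistable
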