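import Mathlib
import Fermat.Agent.Carayol.Omega.ChangeVar
import Fermat.Agent.LevelRaising.Residual
import Fermat.Agent.TwoAdic.Curve.Basic

/-!
# Traces on torsion and changes of coordinates over `ℚ`

`galoisTrace_variableChange`: isomorphic curves have the same traces. `exists_variableChange`:
two curves whose invariants differ by `(t⁴, t⁶)` are isomorphic over `ℚ`.
-/

set_option autoImplicit false

noncomputable section

open WeierstrassCurve WeierstrassCurve.Affine WeierstrassCurve.Affine.Point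
open scoped WeierstrassCurve.Affine

namespace Fermat.Agent.TwoAdic.Semistable

local notation "Qb" => AlgebraicClosure ℚ

theorem galoisTrace_variableChange (E : WeierstrassCurve ℚ) [E.IsElliptic] (C : VariableChange ℚ)
    (p : ℕ) [Fact p.Prime] (σ : Qb ≃ₐ[ℚ] Qb) :
    galoisTrace (K := Qb) ℚ (C • E) p σ = galoisTrace (K := Qb) ℚ E p σ := by
  set φ : ℚ →+* Qb := algebraMap ℚ Qb
  have hXY : (C • E).map φ = C.map φ • E.map φ := (map_variableChange E C φ).symm
  have : (E.map φ).IsElliptic := inferInstance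
  let Φ : ((C • E)⁄Qb).Point ≃+ (E⁄Qb).Point :=
    (LevelRaising.pointCongr hXY).trans (Carayol.Omega.pointEquiv (C.map φ) (E.map φ))
  have hΦ : ∀ (τ : Qb ≃ₐ[ℚ] Qb) (P : ((C • E)⁄Qb).Point), Φ (τ • P) = τ • Φ P := by
    intro τ P
    cases P with
    | zero =>
      rw [algEquiv_smul_def, algEquiv_smul_def]
      change Φ (Point.map τ.toAlgHom 0) = Point.map τ.toAlgHom (Φ 0)
      rw [_root_.map_zero, _root_.map_zero, _root_.map_zero]
    | some x y h =>
      rw [algEquiv_smul_def, algEquiv_smul_def, Point.map_some]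
      show Carayol.Omega.pointEquiv (C.map φ) (E.map φ)
          (LevelRaising.pointCongr hXY (.some _ _ _)) =
        Point.map τ.toAlgHom (Carayol.Omega.pointEquiv (C.map φ) (E.map φ)
          (LevelRaising.pointCongr hXY (.some _ _ h)))
      rw [LevelRaising.pointCongr_some, LevelRaising.pointCongr_some,
        Carayol.Omega.pointEquiv_some, Carayol.Omega.pointEquiv_some]
      refine Eq.trans ?_ (Point.map_some (f := τ.toAlgHom) _).symm
      refine LevelRaising.point_some_congr (X := E.map φ) ?_ ?_ _ _ <;>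
        simp [Carayol.Omega.oldX, Carayol.Omega.oldY, φ]
  let e : Submodule.torsionBy ℤ ((C • E)⁄Qb).Point p ≃+ Submodule.torsionBy ℤ (E⁄Qb).Point p :=
    { toFun := fun x => ⟨Φ x.1, by
        rw [Submodule.mem_torsionBy_iff, ← map_zsmul, (Submodule.mem_torsionBy_iff _ _).mp x.2,
          _root_.map_zero]⟩
      invFun := fun x => ⟨Φ.symm x.1, by
        rw [Submodule.mem_torsionBy_iff, ← map_zsmul, (Submodule.mem_torsionBy_iff _ _).mp x.2,
          _root_.map_zero]⟩
      left_inv := fun x => Subtype.ext (Φ.symm_apply_apply x.1)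
      right_inv := fun x => Subtype.ext (Φ.apply_symm_apply x.1)
      map_add' := fun x y => Subtype.ext (map_add Φ x.1 y.1) }
  let eL : Submodule.torsionBy ℤ ((C • E)⁄Qb).Point p ≃ₗ[ZMod p]
      Submodule.torsionBy ℤ (E⁄Qb).Point p :=
    LinearEquiv.ofBijective (e.toAddMonoidHom.toZModLinearMap p) e.bijective
  have he : galoisRepModuleEnd ℚ E p σ =
      eL.conj (galoisRepModuleEnd ℚ (C • E) p σ) := by
    refine LinearMap.ext fun x => ?_
    obtain ⟨y, rfl⟩ := eL.surjective x
    rw [LinearEquiv.conj_apply_apply, eL.symm_apply_apply]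
    exact (Subtype.ext (hΦ σ y.1)).symm
  show LinearMap.trace _ _ (galoisRepModuleEnd ℚ (C • E) p σ) =
    LinearMap.trace _ _ (galoisRepModuleEnd ℚ E p σ)
  rw [he, LinearMap.trace_conj']

/-- The change of coordinates to the short form. -/
def toShort (E : WeierstrassCurve ℚ) : VariableChange ℚ :=
  ⟨1, -E.b₂ / 12, -E.a₁ / 2, -(E.a₃ + -E.b₂ / 12 * E.a₁) / 2⟩

theorem toShort_smul (E : WeierstrassCurve ℚ) :
    toShort E • E = ⟨0, 0, 0, -E.c₄ / 48, -E.c₆ / 864⟩ := by
  ext <;> simp only [toShort, variableChange_a₁, variableChange_a₂, variableChange_a₃,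
    variableChange_a₄, variableChange_a₆, Units.val_one, inv_one, one_pow, one_mul,
    WeierstrassCurve.c₄, WeierstrassCurve.c₆, WeierstrassCurve.b₂, WeierstrassCurve.b₄,
    WeierstrassCurve.b₆] <;> ring

theorem exists_variableChange {E E' : WeierstrassCurve ℚ} {t : ℚ} (ht : t ≠ 0)
    (h4 : E'.c₄ = t ^ 4 * E.c₄) (h6 : E'.c₆ = t ^ 6 * E.c₆) :
    ∃ C : VariableChange ℚ, C • E = E' := by
  refine ⟨(toShort E')⁻¹ * (⟨(Units.mk0 t ht)⁻¹, 0, 0, 0⟩ * toShort E), ?_⟩
  rw [mul_smul, mul_smul, inv_smul_eq_iff, toShort_smul, toShort_smul, h4, h6]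
  ext <;> simp only [variableChange_a₁, variableChange_a₂, variableChange_a₃, variableChange_a₄,
    variableChange_a₆, inv_inv, Units.val_mk0] <;> ring

theorem galoisTrace_of_scaled {E E' : WeierstrassCurve ℚ} [E.IsElliptic] {t : ℚ} (ht : t ≠ 0)
    (h4 : E'.c₄ = t ^ 4 * E.c₄) (h6 : E'.c₆ = t ^ 6 * E.c₆) (p : ℕ) [Fact p.Prime]
    (σ : Qb ≃ₐ[ℚ] Qb) :
    galoisTrace (K := Qb) ℚ E'.toAffine p σ = galoisTrace (K := Qb) ℚ E.toAffine p σ := by
  obtain ⟨C, rfl⟩ := exists_variableChange ht h4 h6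
  exact galoisTrace_variableChange E C p σ

end Fermat.Agent.TwoAdic.Semistable
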