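import Fermat.Agent.TwoAdic.Semistable.Covariant
import Fermat.Agent.TwoAdic.Semistable.CuspValues
import Fermat.Agent.TwoAdic.Semistable.VariableChange
import Fermat.Agent.TwoAdic.Curve.Model
import Fermat.Agent.Switch.Iso
import Fermat.Agent.Switch.Semistable
import Fermat.Agent.Switch.Main

/-!
# A congruent curve with multiplicative reduction at `2`

A semistable model, good at `2` with `c₄ = 16 * odd` (supersingular reduction with `a₂ = ±2`), has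
the same traces on the 5-torsion as a semistable model that is multiplicative at `2` and of the
same type at `5`: the member of the icosahedral family near the covariant point `(-fDs, fDr)`.
-/

set_option autoImplicit false

open WeierstrassCurve WeierstrassCurve.Affine

namespace Fermat.Agent.TwoAdic.Semistable

open Switch Curve IsLocalRing Polynomial

local notation "Qb" => AlgebraicClosure ℚ

theorem dvd_of_pow_four_dvd_mul {p : ℕ} (hp : p.Prime) (hp2 : p ≠ 2) {x : ℤ}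
    (h : (p : ℤ) ^ 4 ∣ 1728 * x) : (p : ℤ) ∣ x := by
  by_cases h3 : p = 3
  · subst h3
    norm_num at h ⊢
    omega
  · refine ((Nat.prime_iff_prime_int.mp hp).dvd_or_dvd
      ((dvd_pow_self (p : ℤ) four_ne_zero).trans h)).resolve_left fun h' => ?_
    have h'' : p ∣ 2 ^ 6 * 3 ^ 3 := by
      norm_num
      exact_mod_cast h'
    rcases hp.dvd_mul.mp h'' with h'' | h''
    · exact hp2 ((Nat.prime_dvd_prime_iff_eq hp Nat.prime_two).mp (hp.dvd_of_dvd_pow h''))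
    · exact h3 ((Nat.prime_dvd_prime_iff_eq hp Nat.prime_three).mp (hp.dvd_of_dvd_pow h''))

theorem isThreeAdmissible_scale {B a b k : ℤ} (h : IsThreeAdmissible B a b) :
    IsThreeAdmissible (B * k ^ 2) (k ^ 4 * a) (k ^ 6 * b) := by
  refine ⟨?_, ?_⟩
  · rw [show (B * k ^ 2) ^ 2 - k ^ 4 * a = k ^ 4 * (B ^ 2 - a) by ring]
    exact h.1.mul_left _
  · rw [show (B * k ^ 2) ^ 3 - 3 * (B * k ^ 2) * (k ^ 4 * a) - 2 * (k ^ 6 * b)
      = k ^ 6 * (B ^ 3 - 3 * B * a - 2 * b) by ring]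
    exact h.2.mul_left _

/-- The invariants at a good prime `2` with `16 ∣ c₄` and `32 ∤ c₄`. -/
theorem exists_invariants_sixteen {W : WeierstrassCurve ℤ} (h2 : ¬ (2 : ℤ) ∣ W.Δ)
    (h16 : (16 : ℤ) ∣ W.c₄) (h32 : ¬ (32 : ℤ) ∣ W.c₄) :
    ∃ x y : ℤ, W.c₄ = 16 * x ∧ W.c₆ = 8 * y ∧ Odd x ∧ y % 4 = 1 := by
  obtain ⟨x, hx⟩ := h16
  have hxo : Odd x := by
    rw [← Int.not_even_iff_odd]
    rintro ⟨q, hq⟩
    exact h32 ⟨q, by rw [hx, hq]; ring⟩
  obtain ⟨s, hs⟩ : (2 : ℤ) ∣ W.a₁ := by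
    refine Int.prime_two.dvd_of_dvd_pow (n := 4) ?_
    refine ⟨8 * x - 4 * W.a₁ ^ 2 * W.a₂ - 8 * W.a₂ ^ 2 + 24 * W.a₄ + 12 * W.a₁ * W.a₃, ?_⟩
    simp only [WeierstrassCurve.c₄, WeierstrassCurve.b₂, WeierstrassCurve.b₄] at hx
    linear_combination hx
  obtain ⟨q, hq⟩ : Odd W.a₃ := by
    rw [← Int.not_even_iff_odd, even_iff_two_dvd]
    intro h
    refine h2 ?_
    have e3 : ((W.a₃ : ℤ) : ZMod 2) = 0 := (ZMod.intCast_zmod_eq_zero_iff_dvd _ 2).mpr h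
    have e1 : ((W.a₁ : ℤ) : ZMod 2) = 0 :=
      (ZMod.intCast_zmod_eq_zero_iff_dvd _ 2).mpr ⟨s, hs⟩
    refine (ZMod.intCast_zmod_eq_zero_iff_dvd _ 2).mp ?_
    simp only [WeierstrassCurve.Δ, WeierstrassCurve.b₂, WeierstrassCurve.b₄, WeierstrassCurve.b₆,
      WeierstrassCurve.b₈]
    push_cast
    rw [e1, e3, show (4 : ZMod 2) = 0 from rfl, show (8 : ZMod 2) = 0 from rfl]
    ring
  refine ⟨x, -((s ^ 2 + W.a₂) ^ 3 * 8) + 18 * (s ^ 2 + W.a₂) * (2 * W.a₄ + W.a₁ * W.a₃)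
    - 27 * (W.a₃ ^ 2 + 4 * W.a₆), hx, ?_, hxo, ?_⟩
  · simp only [WeierstrassCurve.c₆, WeierstrassCurve.b₂, WeierstrassCurve.b₄,
      WeierstrassCurve.b₆]
    rw [hs]; ring
  · rw [hs, hq]
    ring_nf
    omega

/-- The 2-adic shape of the two invariants at the covariant point. -/
theorem cov_two_odd {a b x y : ℤ} (ha : a = 16 * x) (hb : b = 8 * y) (hx : Odd x)
    (hy : y % 4 = 1) :
    ∃ o₄ o₆ zD : ℤ, covC4 a b = 2 ^ 40 * o₄ ∧ Odd o₄ ∧ covC6 a b = 2 ^ 60 * o₆ ∧ o₆ % 4 = 3 ∧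
      covD a b = 2 ^ 25 * zD := by
  subst ha hb
  obtain ⟨eD, e4, e6⟩ := cov_two (x := x) (y := y)
  obtain ⟨z, hz⟩ : (2 : ℤ) ∣ 25 * y ^ 4 - 3024 * x ^ 3 * y ^ 2 + 91125 * x ^ 6 := by
    refine (ZMod.intCast_zmod_eq_zero_iff_dvd _ 2).mp ?_
    have ex : ((x : ℤ) : ZMod 2) = 1 := by
      rw [← ZMod.intCast_mod x 2, show x % (2 : ℕ) = 1 from Int.odd_iff.mp hx]; rfl
    have ey : ((y : ℤ) : ZMod 2) = 1 := by
      rw [← ZMod.intCast_mod y 2, show y % (2 : ℕ) = 1 by omega]; rfl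
    push_cast
    rw [ex, ey]
    rfl
  refine ⟨_, _, z, e4, ?_, e6, ?_, by rw [eD, hz]; ring⟩
  · rw [← Int.not_even_iff_odd, even_iff_two_dvd]
    intro h
    replace h := (ZMod.intCast_zmod_eq_zero_iff_dvd _ 2).mpr h
    have ex : ((x : ℤ) : ZMod 2) = 1 := by
      rw [← ZMod.intCast_mod x 2, show x % (2 : ℕ) = 1 from Int.odd_iff.mp hx]; rfl
    have ey : ((y : ℤ) : ZMod 2) = 1 := by
      rw [← ZMod.intCast_mod y 2, show y % (2 : ℕ) = 1 by omega]; rfl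
    push_cast at h
    rw [ex, ey] at h
    revert h
    decide
  · suffices h : ((25000 * y ^ 11 - 8360000 * x ^ 3 * y ^ 9
        + 1116155700 * x ^ 6 * y ^ 7 - 74382704352 * x ^ 9 * y ^ 5
        + 2474608269375 * x ^ 12 * y ^ 3 - 32882911875000 * x ^ 15 * y : ℤ) : ZMod 4) = 3 by
      rw [show (3 : ZMod 4) = ((3 : ℤ) : ZMod 4) by norm_num,
        ZMod.intCast_eq_intCast_iff'] at h
      simpa using h
    have ey : ((y : ℤ) : ZMod 4) = 1 := by
      rw [← ZMod.intCast_mod y 4, show y % (4 : ℕ) = 1 from hy]; rfl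
    have ex : ((x : ℤ) : ZMod 4) ^ 2 = 1 := by
      have h : x % 4 = 1 ∨ x % 4 = 3 := by have := Int.odd_iff.mp hx; omega
      rw [← ZMod.intCast_mod x 4]
      rcases h with h | h <;> rw [show x % (4 : ℕ) = _ from h] <;> rfl
    push_cast
    rw [ey, show (25000 : ZMod 4) = 0 from rfl, show (8360000 : ZMod 4) = 0 from rfl,
      show (1116155700 : ZMod 4) = 0 from rfl, show (74382704352 : ZMod 4) = 0 from rfl,
      show (32882911875000 : ZMod 4) = 0 from rfl, show (2474608269375 : ZMod 4) = 3 from rfl,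
      show ((x : ℤ) : ZMod 4) ^ 12 = (((x : ℤ) : ZMod 4) ^ 2) ^ 6 by rw [← pow_mul], ex]
    ring

theorem two_pow_dvd_rel {V₄ V₆ τ a b D zD : ℤ} (h₄ : (2 : ℤ) ^ 140 ∣ V₄ - τ ^ 20 * covC4 a b)
    (h₆ : (2 : ℤ) ^ 140 ∣ V₆ - τ ^ 30 * covC6 a b) (hab : a ^ 3 - b ^ 2 = 1728 * D)
    (hD : covD a b = 2 ^ 25 * zD) : (2 : ℤ) ^ 131 ∣ V₄ ^ 3 - V₆ ^ 2 := by
  have h : (τ ^ 20 * covC4 a b) ^ 3 - (τ ^ 30 * covC6 a b) ^ 2
      = τ ^ 60 * ((a ^ 3 - b ^ 2) * covD a b ^ 5) := by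
    rw [← covC4_cube_sub]; ring
  have h1 : (2 : ℤ) ^ 131 ∣ (τ ^ 20 * covC4 a b) ^ 3 - (τ ^ 30 * covC6 a b) ^ 2 :=
    ⟨τ ^ 60 * 27 * D * zD ^ 5, by rw [h, hab, hD]; ring⟩
  have h2 : (2 : ℤ) ^ 140 ∣ (V₄ ^ 3 - V₆ ^ 2)
      - ((τ ^ 20 * covC4 a b) ^ 3 - (τ ^ 30 * covC6 a b) ^ 2) := by
    rw [show V₄ ^ 3 - V₆ ^ 2 - ((τ ^ 20 * covC4 a b) ^ 3 - (τ ^ 30 * covC6 a b) ^ 2)
      = (V₄ ^ 3 - (τ ^ 20 * covC4 a b) ^ 3) - (V₆ ^ 2 - (τ ^ 30 * covC6 a b) ^ 2) by ring]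
    exact dvd_sub (h₄.trans (sub_dvd_pow_sub_pow _ _ _)) (h₆.trans (sub_dvd_pow_sub_pow _ _ _))
  simpa using dvd_add ((pow_dvd_pow (2 : ℤ) (show 131 ≤ 140 by norm_num)).trans h2) h1

variable {W : WeierstrassCurve ℤ}

/-- The point `(μ, τ)` of the family, and the model it gives. -/
theorem exists_multiplicative_switch [Fact (Nat.Prime 5)] (hΔ : W.Δ ≠ 0)
    (hW : W.IsSemistableModel) (h2 : ¬ (2 : ℤ) ∣ W.Δ) (h16 : (16 : ℤ) ∣ W.c₄)
    (h32 : ¬ (32 : ℤ) ∣ W.c₄) :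
    ∃ W' : WeierstrassCurve ℤ, W'.Δ ≠ 0 ∧ W'.IsSemistableModel ∧ (2 : ℤ) ∣ W'.Δ ∧
      SameTrace W W' 5 ∧ ((5 : ℤ) ∣ W'.Δ ↔ (5 : ℤ) ∣ W.Δ) := by
  obtain ⟨F⟩ := exists_familyData hΔ hW
  set r := F.r₀ with hr
  set s := F.s₀ with hs
  set w₁ := -fDs r s with hw1
  set w₂ := fDr r s with hw2
  set D₀ := fD r s with hD0
  -- integrality
  obtain ⟨N₀, hN0, hNr, hNs⟩ := exists_multiple_integral r s
  set N : ℤ := N₀ ^ 11 with hN
  have hNne : N ≠ 0 := pow_ne_zero _ hN0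
  have iNr : IsIntegral ℤ ((N : Qb) * r) := by
    rw [show (N : Qb) * r = ((N₀ ^ 10 : ℤ) : Qb) * ((N₀ : Qb) * r) by rw [hN]; push_cast; ring]
    exact (isIntegral_algebraMap (R := ℤ) (A := Qb) (x := N₀ ^ 10)).mul hNr
  have iNs : IsIntegral ℤ ((N : Qb) * s) := by
    rw [show (N : Qb) * s = ((N₀ ^ 10 : ℤ) : Qb) * ((N₀ : Qb) * s) by rw [hN]; push_cast; ring]
    exact (isIntegral_algebraMap (R := ℤ) (A := Qb) (x := N₀ ^ 10)).mul hNs
  set R₀ : integralClosure ℤ Qb := ⟨_, hNr⟩ with hR0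
  set S₀ : integralClosure ℤ Qb := ⟨_, hNs⟩ with hS0
  have iNw1 : IsIntegral ℤ ((N : Qb) * w₁) := by
    have e : (N : Qb) * w₁ = ((-fDs R₀ S₀ : integralClosure ℤ Qb) : Qb) := by
      have := map_fDs (integralClosure ℤ Qb).val.toRingHom R₀ S₀
      simp only [AlgHom.toRingHom_eq_coe, RingHom.coe_coe, Subalgebra.coe_val] at this
      push_cast
      rw [this, hR0, hS0, fDs_smul, hw1, hN]
      push_cast; ring
    rw [e]; exact (-fDs R₀ S₀).2
  have iNw2 : IsIntegral ℤ ((N : Qb) * w₂) := by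
    have e : (N : Qb) * w₂ = ((fDr R₀ S₀ : integralClosure ℤ Qb) : Qb) := by
      have := map_fDr (integralClosure ℤ Qb).val.toRingHom R₀ S₀
      simp only [AlgHom.toRingHom_eq_coe, RingHom.coe_coe, Subalgebra.coe_val] at this
      rw [this, hR0, hS0, fDr_smul, hw2, hN]
      push_cast; ring
    rw [e]; exact (fDr R₀ S₀).2
  -- Galois invariance of the values
  have hfix : ∀ (μ τ : ℤ) (σ : Qb ≃ₐ[ℚ] Qb),
      σ (fC4 (μ * r + τ * w₁) (μ * s + τ * w₂)) = fC4 (μ * r + τ * w₁) (μ * s + τ * w₂) ∧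
      σ (fC6 (μ * r + τ * w₁) (μ * s + τ * w₂)) = fC6 (μ * r + τ * w₁) (μ * s + τ * w₂) := by
    intro μ τ σ
    obtain ⟨a, b, c, d, hS, hσr, hσs, -, -⟩ := F.sym σ
    have k1 : σ w₁ = a * w₁ + b * w₂ := by
      have h := hS.k1_eq r s
      rw [← hσr, ← hσs] at h
      have e : σ (fDs r s) = fDs (σ r) (σ s) := map_fDs (σ : Qb →+* Qb) r s
      rw [hw1, map_neg, e]
      exact h
    have k2 : σ w₂ = c * w₁ + d * w₂ := by
      have h := hS.k2_eq r s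
      rw [← hσr, ← hσs] at h
      have e : σ (fDr r s) = fDr (σ r) (σ s) := map_fDr (σ : Qb →+* Qb) r s
      rw [hw2, e]
      exact h
    set P₁ := (μ : Qb) * r + τ * w₁ with hP1
    set P₂ := (μ : Qb) * s + τ * w₂ with hP2
    have e1 : σ P₁ = a * P₁ + b * P₂ := by
      rw [hP1, hP2, map_add, map_mul, map_mul, map_intCast, map_intCast, hσr, k1]; ring
    have e2 : σ P₂ = c * P₁ + d * P₂ := by
      rw [hP1, hP2, map_add, map_mul, map_mul, map_intCast, map_intCast, hσs, k2]; ring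
    refine ⟨?_, ?_⟩
    · have := map_fC4 (σ : Qb →+* Qb) P₁ P₂
      simp only [RingHom.coe_coe] at this
      rw [this, e1, e2, hS.c4_eq]
    · have := map_fC6 (σ : Qb →+* Qb) P₁ P₂
      simp only [RingHom.coe_coe] at this
      rw [this, e1, e2, hS.c6_eq]
  -- the two moduli
  set m : ℤ := (15 * W.Δ) ^ 4 with hm
  have hmo : Odd m := by
    refine Odd.pow (Odd.mul (by decide) ?_)
    rwa [← Int.not_even_iff_odd, even_iff_two_dvd]
  obtain ⟨e, o, ho, hNeo⟩ : ∃ (e : ℕ) (o : ℤ), Odd o ∧ N = 2 ^ e * o := by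
    obtain ⟨e, o, ho, h⟩ := Nat.exists_eq_two_pow_mul_odd (Int.natAbs_ne_zero.mpr hNne)
    rcases Int.natAbs_eq N with h' | h'
    · exact ⟨e, o, by exact_mod_cast ho, by rw [h', h]; push_cast; rfl⟩
    · exact ⟨e, -o, Odd.neg (by exact_mod_cast ho), by rw [h', h]; push_cast; ring⟩
  set k := 30 * e + 140 with hk
  set μ : ℤ := 2 ^ k with hμ
  have hμ0 : μ ≠ 0 := pow_ne_zero _ two_ne_zero
  have hm0 : m ≠ 0 := pow_ne_zero _ (mul_ne_zero (by norm_num) hΔ)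
  have ho0 : o ≠ 0 := by rintro rfl; simp at ho
  let T : ℕ → ℤ := fun j => o ^ 30 * m ^ (j + 1)
  -- choose `τ` off the roots of `fD` and of `μ - α τ`
  obtain ⟨j, hjD, hjα⟩ : ∃ j : ℕ, fD ((μ : Qb) * r + (T j : ℤ) * w₁) (μ * s + (T j : ℤ) * w₂) ≠ 0
      ∧ μ - F.α * T j ≠ 0 := by
    set P : Qb[X] := fD (C ((μ : Qb) * r) + X * C w₁) (C ((μ : Qb) * s) + X * C w₂) with hP
    have hP0 : P ≠ 0 := fun h => by
      have := congrArg (Polynomial.eval 0) h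
      simp only [hP, eval_fD, eval_add, eval_mul, eval_C, eval_X, zero_mul, add_zero,
        eval_zero, fD_smul] at this
      rcases mul_eq_zero.mp this with h | h
      · exact pow_ne_zero _ (Int.cast_ne_zero.mpr hμ0) h
      · exact F.fD_base h
    have hinj : Function.Injective fun j : ℕ => ((T j : ℤ) : Qb) := by
      intro i j h
      simp only [Int.cast_inj] at h
      have h := mul_left_cancel₀ (pow_ne_zero 30 ho0) h
      have h' : m.natAbs ^ (i + 1) = m.natAbs ^ (j + 1) := by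
        rw [← Int.natAbs_pow, ← Int.natAbs_pow, h]
      have h1 : 2 ≤ m.natAbs := by
        rw [hm, Int.natAbs_pow, Int.natAbs_mul]
        have : 1 ≤ W.Δ.natAbs := Int.natAbs_pos.mpr hΔ
        have : 15 ≤ (15 : ℤ).natAbs * W.Δ.natAbs := by
          norm_num; omega
        exact le_trans (by omega) (Nat.le_self_pow four_ne_zero _)
      have := Nat.pow_right_injective h1 h'
      omega
    have hfin : {x : Qb | P.IsRoot x ∨ (μ : Qb) - F.α * x = 0}.Finite := by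
      refine Set.Finite.union (finite_setOfPred_isRoot hP0) ?_
      by_cases hα : (F.α : Qb) = 0
      · refine Set.finite_empty.subset fun x hx => ?_
        have hx' : (μ : Qb) - F.α * x = 0 := hx
        simp [hα, hμ0] at hx'
      · refine Set.Finite.subset (Set.finite_singleton ((μ : Qb) / F.α)) fun x hx => ?_
        rw [Set.mem_singleton_iff, eq_div_iff hα]
        have hx' : (μ : Qb) - F.α * x = 0 := hx
        linear_combination -hx'
    obtain ⟨x, ⟨j, rfl⟩, hx⟩ := ((Set.infinite_range_of_injective hinj).sdiff hfin).nonempty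
    refine ⟨j, fun h => hx (Or.inl ?_), fun h => hx (Or.inr ?_)⟩
    · rw [Polynomial.IsRoot.def, hP, eval_fD]
      simp only [eval_add, eval_mul, eval_C, eval_X]
      exact h
    · show (μ : Qb) - F.α * ((T j : ℤ) : Qb) = 0
      exact_mod_cast h
  set τ := T j with hτ
  have hmτ : o ^ 30 * m ∣ τ := mul_dvd_mul_left _ (dvd_pow_self _ (Nat.succ_ne_zero _))
  have hτo : Odd τ := (ho.pow).mul hmo.pow
  have hτ0 : τ ≠ 0 := by intro h; simp [h] at hτo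
  -- the values
  have hA4 : fC4 r s = ((W.c₄ : ℤ) : Qb) := F.c4_base
  have hA6 : fC6 r s = ((W.c₆ : ℤ) : Qb) := F.c6_base
  have hB4 : fC4 w₁ w₂ = ((covC4 W.c₄ W.c₆ : ℤ) : Qb) := by
    rw [hw1, hw2, fC4_cov, hA4, hA6]; simp [covC4]
  have hB6 : fC6 w₁ w₂ = ((covC6 W.c₄ W.c₆ : ℤ) : Qb) := by
    rw [hw1, hw2, fC6_cov, hA4, hA6]; simp [covC6]
  obtain ⟨X₄, hX4, hX4τ, hX4μ⟩ := exists_scaled_value (d := 20) fC4 fC4
    (fun x y => map_fC4 (integralClosure ℤ Qb).val.toRingHom x y) fC4_smul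
    (fun _ _ _ _ _ => dvd_fC4_sub) iNr iNs iNw1 iNw2 hA4 hB4 hμ0 hτ0 fun σ => (hfix μ τ σ).1
  obtain ⟨X₆, hX6, hX6τ, hX6μ⟩ := exists_scaled_value (d := 30) fC6 fC6
    (fun x y => map_fC6 (integralClosure ℤ Qb).val.toRingHom x y) fC6_smul
    (fun _ _ _ _ _ => dvd_fC6_sub) iNr iNs iNw1 iNw2 hA6 hB6 hμ0 hτ0 fun σ => (hfix μ τ σ).2
  rw [hNeo] at hX4τ hX4μ hX6τ hX6μ
  obtain ⟨V₄, hV4X, hV4m, hV4two⟩ := exists_value_congr (K := 140) ho hmo (by omega)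
    ((mul_dvd_mul_right (pow_dvd_pow o (by norm_num : 20 ≤ 30)) m).trans hmτ) hX4τ hX4μ
  obtain ⟨V₆, hV6X, hV6m, hV6two⟩ := exists_value_congr (K := 140) ho hmo (by omega)
    hmτ hX6τ hX6μ
  have hNQ : (N : Qb) ≠ 0 := Int.cast_ne_zero.mpr hNne
  set P₁ := (μ : Qb) * r + τ * w₁ with hP1
  set P₂ := (μ : Qb) * s + τ * w₂ with hP2
  have hV4 : (V₄ : Qb) = fC4 P₁ P₂ := by
    rw [hV4X, ← hNeo] at hX4
    push_cast at hX4
    exact mul_left_cancel₀ (pow_ne_zero _ hNQ) hX4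
  have hV6 : (V₆ : Qb) = fC6 P₁ P₂ := by
    rw [hV6X, ← hNeo] at hX6
    push_cast at hX6
    exact mul_left_cancel₀ (pow_ne_zero _ hNQ) hX6
  -- the scaled invariants
  obtain ⟨x, y, hx, hy, hxo, hy4⟩ := exists_invariants_sixteen h2 h16 h32
  obtain ⟨o₄, o₆, zD, ho4, ho4o, ho6, ho6m, hzD⟩ := cov_two_odd hx hy hxo hy4
  obtain ⟨z₄, hz4⟩ := hV4two
  obtain ⟨z₆, hz6⟩ := hV6two
  set c₄' : ℤ := τ ^ 20 * o₄ + 2 ^ 100 * z₄ with hc4'
  set c₆' : ℤ := τ ^ 30 * o₆ + 2 ^ 80 * z₆ with hc6'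
  have e4 : V₄ = 2 ^ 40 * c₄' := by
    rw [hc4']; linear_combination hz4 + τ ^ 20 * ho4
  have e6 : V₆ = 2 ^ 60 * c₆' := by
    rw [hc6']; linear_combination hz6 + τ ^ 30 * ho6
  have hc4odd : Odd c₄' := by
    rw [hc4']
    exact ((hτo.pow).mul ho4o).add_even (Even.mul_right ((by decide : Even (2 : ℤ)).pow_of_ne_zero
      (by norm_num)) _)
  have hc6m : c₆' % 4 = 3 := by
    obtain ⟨q, hq⟩ := hτo.pow (n := 15)
    have : c₆' = 4 * ((q * q + q) * o₆ + 2 ^ 78 * z₆) + o₆ := by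
      rw [hc6', show τ ^ 30 = (τ ^ 15) ^ 2 by ring, hq]; ring
    omega
  set κ : ℤ := 2 ^ (5 * k - 10) with hκ
  have hκ4 : (μ : ℤ) ^ 20 = 2 ^ 40 * κ ^ 4 := by
    rw [hμ, hκ, ← pow_mul, ← pow_mul, ← pow_add]; congr 1; omega
  have hκ6 : (μ : ℤ) ^ 30 = 2 ^ 60 * κ ^ 6 := by
    rw [hμ, hκ, ← pow_mul, ← pow_mul, ← pow_add]; congr 1; omega
  have cop : ∀ i : ℕ, IsCoprime m ((2 : ℤ) ^ i) := fun i => by
    refine (IsCoprime.pow_left ?_).symm
    refine (Int.prime_two.coprime_iff_not_dvd).mpr ?_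
    rw [Int.two_dvd_ne_zero]
    exact Int.odd_iff.mp hmo
  have hm4 : m ∣ c₄' - κ ^ 4 * W.c₄ := by
    rw [e4, hκ4, mul_assoc, ← mul_sub] at hV4m
    exact (cop 40).dvd_of_dvd_mul_left hV4m
  have hm6 : m ∣ c₆' - κ ^ 6 * W.c₆ := by
    rw [e6, hκ6, mul_assoc, ← mul_sub] at hV6m
    exact (cop 60).dvd_of_dvd_mul_left hV6m
  have hmd : m ∣ (c₄' ^ 3 - c₆' ^ 2) - 1728 * (κ ^ 12 * W.Δ) := by
    have h := dvd_sub (hm4.trans (sub_dvd_pow_sub_pow _ _ 3)) (hm6.trans (sub_dvd_pow_sub_pow _ _ 2))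
    have e := W.c_relation
    rwa [show c₄' ^ 3 - (κ ^ 4 * W.c₄) ^ 3 - (c₆' ^ 2 - (κ ^ 6 * W.c₆) ^ 2)
      = (c₄' ^ 3 - c₆' ^ 2) - 1728 * (κ ^ 12 * W.Δ) by linear_combination κ ^ 12 * e] at h
  have h81m : (3 : ℤ) ^ 4 ∣ m := ⟨(5 * W.Δ) ^ 4, by rw [hm]; ring⟩
  obtain ⟨z, hz⟩ : (3456 : ℤ) ∣ c₄' ^ 3 - c₆' ^ 2 := by
    have h11 : (2 : ℤ) ^ 11 ∣ c₄' ^ 3 - c₆' ^ 2 := by
      have h := two_pow_dvd_rel ⟨z₄, hz4⟩ ⟨z₆, hz6⟩ W.c_relation.symm hzD
      rw [e4, e6, show (2 ^ 40 * c₄') ^ 3 - (2 ^ 60 * c₆') ^ 2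
        = (2 : ℤ) ^ 120 * (c₄' ^ 3 - c₆' ^ 2) by ring, show (2 : ℤ) ^ 131 = 2 ^ 120 * 2 ^ 11 by
        rw [← pow_add]] at h
      exact (mul_dvd_mul_iff_left (pow_ne_zero _ two_ne_zero)).mp h
    have h27 : (27 : ℤ) ∣ c₄' ^ 3 - c₆' ^ 2 := by
      have := ((show (27 : ℤ) ∣ 3 ^ 4 by norm_num).trans h81m).trans hmd
      rwa [dvd_sub_left (Dvd.dvd.mul_right (by norm_num) _)] at this
    have h128 : (128 : ℤ) ∣ c₄' ^ 3 - c₆' ^ 2 := (show (128 : ℤ) ∣ 2 ^ 11 by norm_num).trans h11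
    omega
  have hrel : c₄' ^ 3 - c₆' ^ 2 = 1728 * (2 * z) := by linear_combination hz
  have h3ad : ∃ B, IsThreeAdmissible B c₄' c₆' :=
    ⟨_, (isThreeAdmissible_scale (k := κ) (isThreeAdmissible_b₂ W)).congr
      (((show (27 : ℤ) ∣ 3 ^ 4 by norm_num).trans h81m).trans hm4)
      (((show (27 : ℤ) ∣ 3 ^ 4 by norm_num).trans h81m).trans hm6)⟩
  obtain ⟨W', hW4, hW6, hWΔ⟩ := exists_model hrel (dvd_mul_right _ _) hc4odd hc6m h3ad
  -- the discriminant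
  have hfD5 : fD P₁ P₂ ^ 5 = (2 : Qb) ^ 120 * ((W'.Δ : ℤ) : Qb) := by
    apply mul_left_cancel₀ (show (1728 : Qb) ≠ 0 by norm_num)
    rw [← fC4_cube_sub_fC6_sq, ← hV4, ← hV6, e4, e6, hWΔ]
    have := congrArg (Int.cast : ℤ → Qb) hrel
    push_cast at this ⊢
    linear_combination (2 : Qb) ^ 120 * this
  have hW'0 : W'.Δ ≠ 0 := fun h => hjD (pow_eq_zero_iff (n := 5) (by norm_num) |>.mp
    (by rw [hfD5, h]; simp))
  have hcong : ∀ p : ℕ, p.Prime → p ≠ 2 → (p : ℤ) ∣ 15 * W.Δ →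
      (p : ℤ) ∣ W'.Δ - κ ^ 12 * W.Δ ∧ (p : ℤ) ∣ c₄' - κ ^ 4 * W.c₄ ∧ ¬ (p : ℤ) ∣ κ := by
    intro p hp hp2 hd
    have hpm : (p : ℤ) ^ 4 ∣ m := pow_dvd_pow_of_dvd hd 4
    refine ⟨dvd_of_pow_four_dvd_mul hp hp2 ?_, (dvd_pow_self _ four_ne_zero).trans
      (hpm.trans hm4), fun h => hp2 ?_⟩
    · rw [mul_sub, hWΔ, ← hrel]
      exact hpm.trans hmd
    · have := (Nat.prime_iff_prime_int.mp hp).dvd_of_dvd_pow h
      exact (Nat.prime_dvd_prime_iff_eq hp Nat.prime_two).mp (Int.natCast_dvd_natCast.mp this)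
  refine ⟨W', hW'0, ?_, hWΔ ▸ dvd_mul_right _ _, ?_, ?_⟩
  · -- semistability
    intro p hp hpΔ hpc
    have hp' : Prime (p : ℤ) := Nat.prime_iff_prime_int.mp hp
    rw [hW4] at hpc
    by_cases hp2 : p = 2
    · subst hp2
      exact absurd hpc (by rw [show ((2 : ℕ) : ℤ) = 2 from rfl, Int.two_dvd_ne_zero]
                           exact Int.odd_iff.mp hc4odd)
    by_cases h15 : (p : ℤ) ∣ 15 * W.Δ
    · obtain ⟨hd, hc, hκp⟩ := hcong p hp hp2 h15
      have h1 : (p : ℤ) ∣ W.Δ :=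
        (hp'.dvd_or_dvd ((dvd_sub_right hpΔ).mp hd)).resolve_left fun h =>
          hκp (hp'.dvd_of_dvd_pow h)
      exact hW p hp h1 ((hp'.dvd_or_dvd ((dvd_sub_right hpc).mp hc)).resolve_left fun h =>
        hκp (hp'.dvd_of_dvd_pow h))
    · have h30 : ¬ (p : ℤ) ∣ 30 * W.Δ := fun h => by
        rw [show (30 : ℤ) * W.Δ = 2 * (15 * W.Δ) by ring] at h
        rcases hp'.dvd_or_dvd h with h | h
        · exact hp2 ((Nat.prime_dvd_prime_iff_eq hp Nat.prime_two).mp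
            (Int.natCast_dvd_natCast.mp h))
        · exact h15 h
      obtain ⟨A, hA⟩ := Arith.exists_liesOverPrime hp
      obtain ⟨hrA, hsA⟩ := F.base_mem hp h30 hA
      set rA : A := ⟨r, hrA⟩ with hrA'
      set sA : A := ⟨s, hsA⟩ with hsA'
      set Q₁ : A := (μ : A) * rA + (τ : A) * -fDs rA sA with hQ1
      set Q₂ : A := (μ : A) * sA + (τ : A) * fDr rA sA with hQ2
      have hinj : Function.Injective A.subtype := fun x y h => Subtype.ext h
      have hs1 : A.subtype Q₁ = P₁ := by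
        rw [hQ1, map_add, map_mul, map_mul, map_neg, map_intCast, map_intCast, map_fDs]; rfl
      have hs2 : A.subtype Q₂ = P₂ := by
        rw [hQ2, map_add, map_mul, map_mul, map_intCast, map_intCast, map_fDr]; rfl
      have f4 : fC4 Q₁ Q₂ = ((V₄ : ℤ) : A) :=
        hinj (by rw [map_fC4, hs1, hs2, map_intCast, hV4])
      have f5 : fD Q₁ Q₂ ^ 5 = (((2 : ℤ) ^ 120 * W'.Δ : ℤ) : A) :=
        hinj (by rw [map_pow, map_fD, hs1, hs2, map_intCast, hfD5, Int.cast_mul, Int.cast_pow,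
          Int.cast_ofNat])
      set φ := residue A
      have z4 : fC4 (φ Q₁) (φ Q₂) = 0 := by
        rw [← map_fC4, f4, map_intCast]
        exact (intCast_residue_eq_zero_iff hA hp _).mpr (e4 ▸ hpc.mul_left _)
      have zD' : fD (φ Q₁) (φ Q₂) = 0 := by
        have : fD (φ Q₁) (φ Q₂) ^ 5 = 0 := by
          rw [← map_fD, ← map_pow, f5, map_intCast]
          exact (intCast_residue_eq_zero_iff hA hp _).mpr (hpΔ.mul_left _)
        simpa using this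
      have hne : ∀ M : ℤ, ¬ (p : ℤ) ∣ M → (M : ResidueField A) ≠ 0 := fun M hM h =>
        hM ((intCast_residue_eq_zero_iff hA hp M).mp h)
      have hp5 : (3125 : ResidueField A) ≠ 0 := by
        have := hne (5 ^ 5) fun h => h15 ((hp'.dvd_of_dvd_pow h).trans
          (dvd_mul_of_dvd_left (by norm_num) _))
        norm_num at this
        exact this
      have hp12 : (12 : ResidueField A) ≠ 0 := by
        have := hne (2 ^ 2 * 3) fun h => by
          rcases hp'.dvd_or_dvd h with h | h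
          · exact h30 ((hp'.dvd_of_dvd_pow h).trans (dvd_mul_of_dvd_left (by norm_num) _))
          · exact h30 (h.trans (dvd_mul_of_dvd_left (by norm_num) _))
        norm_num at this
        exact this
      have b1 := bezout_fst (φ Q₁) (φ Q₂)
      have b2 := bezout_snd (φ Q₁) (φ Q₂)
      rw [z4, zD'] at b1 b2
      simp only [mul_zero, add_zero, mul_eq_zero, hp5, false_or,
        pow_eq_zero_iff (by norm_num : (31 : ℕ) ≠ 0)] at b1 b2
      have hdet : Q₁ * fDr rA sA - Q₂ * -fDs rA sA = (μ : A) * (12 * fD rA sA) := by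
        rw [hQ1, hQ2, ← euler_fD]; ring
      have hd := congrArg φ hdet
      rw [map_sub, map_mul, map_mul, b1, b2, zero_mul, zero_mul, sub_self, map_mul, map_mul,
        map_intCast, map_ofNat] at hd
      have hμp : ((μ : ℤ) : ResidueField A) ≠ 0 := hne μ fun h => h30
        ((hp'.dvd_of_dvd_pow h).trans (dvd_mul_of_dvd_left (by norm_num) _))
      have hz0 : φ (fD rA sA) = 0 := by simpa [hp12, hμp] using hd.symm
      have e0 : fD rA sA ^ 5 = ((W.Δ : ℤ) : A) := by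
        apply hinj
        rw [map_pow, map_fD, map_intCast]
        apply mul_left_cancel₀ (show (1728 : Qb) ≠ 0 by norm_num)
        show (1728 : Qb) * fD r s ^ 5 = _
        rw [← fC4_cube_sub_fC6_sq, hA4, hA6]
        exact_mod_cast W.c_relation.symm
      have hΔ0 : ((W.Δ : ℤ) : ResidueField A) = 0 := by
        rw [← map_intCast φ, ← e0, map_pow, hz0, zero_pow (by norm_num)]
      exact h30 (((intCast_residue_eq_zero_iff hA hp _).mp hΔ0).mul_left 30)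
  · -- the traces
    set L : ℤ := μ - F.α * τ with hL
    have hLQ : (L : Qb) ≠ 0 := Int.cast_ne_zero.mpr hjα
    set V : WeierstrassCurve ℚ :=
      ⟨W.a₁, W.a₂, W.a₃, (W.a₄ : ℚ) - ((V₄ : ℚ) / (L : ℚ) ^ 20 - W.c₄) / 48,
        (W.a₆ : ℚ) - (W.b₂ : ℚ) * ((V₄ : ℚ) / (L : ℚ) ^ 20 - W.c₄) / 576
          - ((V₆ : ℚ) / (L : ℚ) ^ 30 - W.c₆) / 864⟩ with hV
    have hVc4 : V.c₄ = (V₄ : ℚ) / (L : ℚ) ^ 20 := by
      simp only [hV, WeierstrassCurve.c₄, WeierstrassCurve.b₂, WeierstrassCurve.b₄]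
      push_cast; ring
    have hVc6 : V.c₆ = (V₆ : ℚ) / (L : ℚ) ^ 30 := by
      simp only [hV, WeierstrassCurve.c₄, WeierstrassCurve.c₆, WeierstrassCurve.b₂,
        WeierstrassCurve.b₄, WeierstrassCurve.b₆]
      push_cast; ring
    set t : ℚ := (τ : ℚ) / (L : ℚ) with ht
    have htL : (L : Qb) * (t : Qb) = τ := by
      rw [ht]; push_cast; field_simp
    have hLe : (L : Qb) = μ - F.α * τ := by rw [hL]; push_cast; ring
    have hpt1 : F.r₀ + (t : Qb) * F.u = (L : Qb)⁻¹ * P₁ := by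
      rw [eq_inv_mul_iff_mul_eq₀ hLQ, F.hu, hP1, hw1, ← hr, ← hs]
      linear_combination ((F.α : Qb) * r - fDs r s) * htL + r * hLe
    have hpt2 : F.s₀ + (t : Qb) * F.v = (L : Qb)⁻¹ * P₂ := by
      rw [eq_inv_mul_iff_mul_eq₀ hLQ, F.hv, hP2, hw2, ← hr, ← hs]
      linear_combination ((F.α : Qb) * s + fDr r s) * htL + s * hLe
    have hfib : Fib (V⁄Qb) (F.r₀ + (t : Qb) * F.u) (F.s₀ + (t : Qb) * F.v) := by
      rw [hpt1, hpt2]
      refine ⟨?_, ?_, ?_⟩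
      · show (V.map (algebraMap ℚ Qb)).c₄ = _
        rw [map_c₄, hVc4, fC4_smul, ← hV4, eq_ratCast]
        push_cast
        field_simp
      · show (V.map (algebraMap ℚ Qb)).c₆ = _
        rw [map_c₆, hVc6, fC6_smul, ← hV6, eq_ratCast]
        push_cast
        field_simp
      · rw [fD_smul]
        exact mul_ne_zero (pow_ne_zero _ (inv_ne_zero hLQ)) hjD
    have hbase : Fib ((W.map (Int.castRingHom ℚ))⁄Qb)
        (F.r₀ + ((0 : ℚ) : Qb) * F.u) (F.s₀ + ((0 : ℚ) : Qb) * F.v) := Switch.fib_base F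
    have hVΔ : V.Δ ≠ 0 := fun h => by
      have h1 := hfib.Δ_ne_zero
      refine h1 ?_
      show (V.map (algebraMap ℚ Qb)).Δ = 0
      rw [map_Δ, h, map_zero]
    have : V.IsElliptic := ⟨isUnit_iff_ne_zero.mpr hVΔ⟩
    intro σ
    rw [F.galoisTrace_eq (W.map (Int.castRingHom ℚ)) V 0 t
      (fun U hU => by
        rcases hU with rfl | hU
        · exact ⟨by simp, by simp, by simp⟩
        · rw [Set.mem_singleton_iff] at hU
          subst hU
          exact ⟨by simp [hV], by simp [hV], by simp [hV]⟩)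
      hbase hfib σ]
    have hL0 : (L : ℚ) ≠ 0 := Int.cast_ne_zero.mpr hjα
    refine (galoisTrace_of_scaled (E := V) (E' := W'.map (Int.castRingHom ℚ))
      (t := (L : ℚ) ^ 5 / 2 ^ 10)
      (div_ne_zero (pow_ne_zero _ hL0) (pow_ne_zero _ two_ne_zero)) ?_ ?_ 5 σ).symm
    · rw [map_c₄, hW4, hVc4, eq_intCast, e4]
      push_cast
      field_simp
      ring
    · rw [map_c₆, hW6, hVc6, eq_intCast, e6]
      push_cast
      field_simp
      ring
  · -- the type at 5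
    obtain ⟨hd, -, hκp⟩ := hcong 5 Nat.prime_five (by norm_num)
      (dvd_mul_of_dvd_left (by norm_num) _)
    push_cast at hd hκp
    constructor
    · intro h
      exact ((Int.prime_iff_natAbs_prime.mpr (by norm_num)).dvd_or_dvd
        ((dvd_sub_right h).mp hd)).resolve_left fun h' =>
          hκp ((Int.prime_iff_natAbs_prime.mpr (by norm_num : (5 : ℤ).natAbs.Prime)).dvd_of_dvd_pow h')
    · intro h
      exact (dvd_sub_left (h.mul_left _)).mp hd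

end Fermat.Agent.TwoAdic.Semistable
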