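import Mathlib
import Fermat.Prelude.Def_FLTPrelim_Modularity
import Fermat.Agent.TwoAdic.Curve.Forms

/-!
# The good supersingular points at `2` of the mod 3 family

With `l = 12 x + b₂ z`, `n = z` the quartic `famD` is `6912 ψ₃(x, z)`, and `famC4`, `famC6` are
`12 ^ 4` and `12 ^ 6` times the integral forms `covFour`, `covSix`. If `a₁` is odd and `a₃`, `a₄`
are divisible by a high power of `2`, the points with `z` odd and `x ≡ 0 (mod 2 ^ (k + 1))`,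
where `2 ^ (3 k)` exactly divides `Δ`, have good supersingular reduction at `2` after scaling by
`2 ^ k`.
-/

set_option autoImplicit false

namespace Fermat.Agent.TwoAdic.Semistable

open Curve

variable {R : Type*} [CommRing R]

/-- The homogeneous 3-division polynomial in terms of `b₂, b₄, b₆, b₈`. -/
def psiThreeForm (b2 b4 b6 b8 x z : R) : R :=
  3 * x ^ 4 + b2 * x ^ 3 * z + 3 * b4 * x ^ 2 * z ^ 2 + 3 * b6 * x * z ^ 3 + b8 * z ^ 4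

/-- `famC4 / 12 ^ 4` in the coordinates `(x, z)`. -/
def covFour (b2 b4 b6 b8 x z : R) : R :=
  1 * x ^ 4 * b2 ^ 2 - 24 * x ^ 4 * b4 + 4 * x ^ 3 * z * b2 * b4 - 72 * x ^ 3 * z * b6 - 6 * x ^ 2 * z ^ 2 * b2 * b6 + 12 * x ^ 2 * z ^ 2 * b4 ^ 2 - 48 * x ^ 2 * z ^ 2 * b8 - 8 * x * z ^ 3 * b2 * b8 + 12 * x * z ^ 3 * b4 * b6 - 8 * z ^ 4 * b4 * b8 + 9 * z ^ 4 * b6 ^ 2

/-- `famC6 / 12 ^ 6` in the coordinates `(x, z)`. -/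
def covSix (b2 b4 b6 b8 x z : R) : R :=
  -1 * x ^ 6 * b2 ^ 3 + 36 * x ^ 6 * b2 * b4 - 216 * x ^ 6 * b6 - 6 * x ^ 5 * z * b2 ^ 2 * b4 - 36 * x ^ 5 * z * b2 * b6 + 216 * x ^ 5 * z * b4 ^ 2 - 288 * x ^ 5 * z * b8 - 15 * x ^ 4 * z ^ 2 * b2 ^ 2 * b6 - 120 * x ^ 4 * z ^ 2 * b2 * b8 + 540 * x ^ 4 * z ^ 2 * b4 * b6 - 20 * x ^ 3 * z ^ 3 * b2 ^ 2 * b8 + 540 * x ^ 3 * z ^ 3 * b6 ^ 2 - 60 * x ^ 2 * z ^ 4 * b2 * b4 * b8 + 45 * x ^ 2 * z ^ 4 * b2 * b6 ^ 2 + 360 * x ^ 2 * z ^ 4 * b6 * b8 + 12 * x * z ^ 5 * b2 * b6 * b8 - 72 * x * z ^ 5 * b4 ^ 2 * b8 + 54 * x * z ^ 5 * b4 * b6 ^ 2 + 96 * x * z ^ 5 * b8 ^ 2 + 8 * z ^ 6 * b2 * b8 ^ 2 - 36 * z ^ 6 * b4 * b6 * b8 + 27 * z ^ 6 * b6 ^ 3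

variable (W : WeierstrassCurve ℤ)

theorem famC4_eq_covFour (x z : ℤ) :
    famC4 W.c₄ W.c₆ (12 * x + W.b₂ * z) z = 12 ^ 4 * covFour W.b₂ W.b₄ W.b₆ W.b₈ x z := by
  simp only [famC4, covFour, WeierstrassCurve.c₄, WeierstrassCurve.c₆]
  linear_combination ((248832) * x ^ 2 * z ^ 2
      + (41472) * x * z ^ 3 * W.b₂
      + (41472) * z ^ 4 * W.b₄) * W.b_relation

theorem famC6_eq_covSix (x z : ℤ) :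
    famC6 W.c₄ W.c₆ (12 * x + W.b₂ * z) z = 12 ^ 6 * covSix W.b₂ W.b₄ W.b₆ W.b₈ x z := by
  simp only [famC6, covSix, WeierstrassCurve.c₄, WeierstrassCurve.c₆]
  linear_combination ((214990848) * x ^ 5 * z
      + (89579520) * x ^ 4 * z ^ 2 * W.b₂
      + (14929920) * x ^ 3 * z ^ 3 * W.b₂ ^ 2
      + (44789760) * x ^ 2 * z ^ 4 * W.b₂ * W.b₄
      + (-268738560) * x ^ 2 * z ^ 4 * W.b₆
      + (-26873856) * x * z ^ 5 * W.b₂ * W.b₆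
      + (71663616) * x * z ^ 5 * W.b₄ ^ 2
      + (-71663616) * x * z ^ 5 * W.b₈
      + (-1492992) * z ^ 6 * W.b₂ ^ 2 * W.b₆
      + (1492992) * z ^ 6 * W.b₂ * W.b₄ ^ 2
      + (-5971968) * z ^ 6 * W.b₂ * W.b₈
      + (26873856) * z ^ 6 * W.b₄ * W.b₆) * W.b_relation

theorem famD_eq_psiThreeForm (x z : ℤ) :
    famD W.c₄ W.c₆ (12 * x + W.b₂ * z) z = 6912 * psiThreeForm W.b₂ W.b₄ W.b₆ W.b₈ x z := by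
  simp only [famD, psiThreeForm, WeierstrassCurve.c₄, WeierstrassCurve.c₆]
  linear_combination ((-1728) * z ^ 4) * W.b_relation

theorem covFour_cube_sub_covSix_sq (x z : ℤ) :
    covFour W.b₂ W.b₄ W.b₆ W.b₈ x z ^ 3 - covSix W.b₂ W.b₄ W.b₆ W.b₈ x z ^ 2
      = 64 * W.Δ * psiThreeForm W.b₂ W.b₄ W.b₆ W.b₈ x z ^ 3 := by
  have h := famC4_cube_sub_famC6_sq W.c₄ W.c₆ (12 * x + W.b₂ * z) z
  rw [famC4_eq_covFour, famC6_eq_covSix, famD_eq_psiThreeForm] at h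
  refine mul_left_cancel₀ (show (12 ^ 12 : ℤ) ≠ 0 by norm_num) ?_
  linear_combination h - (6912 * psiThreeForm W.b₂ W.b₄ W.b₆ W.b₈ x z) ^ 3 * W.c_relation

/-- The scaled value of `covFour`, up to multiples of `2`. -/
theorem covFour_scaled (ε X z b t f e : ℤ) :
    ∃ r : ℤ, covFour b (16 * ε ^ 3 * t) (4 * ε ^ 3 * f) (ε ^ 3 * e) (2 * ε * X) z
      = ε ^ 4 * (16 * (1 * X ^ 4 * b ^ 2 - 1 * X ^ 1 * z ^ 3 * b ^ 1 * e ^ 1 + 9 * ε ^ 2 * z ^ 4 * f ^ 2 + 2 * r)) :=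
  ⟨(-192 * ε ^ 3 * X ^ 4 * t ^ 1) + (16 * ε ^ 2 * X ^ 3 * z ^ 1 * b ^ 1 * t ^ 1) + (-72 * ε ^ 2 * X ^ 3 * z ^ 1 * f ^ 1) + (-3 * ε ^ 1 * X ^ 2 * z ^ 2 * b ^ 1 * f ^ 1) + (384 * ε ^ 4 * X ^ 2 * z ^ 2 * t ^ 2) + (-6 * ε ^ 1 * X ^ 2 * z ^ 2 * e ^ 1) + (48 * ε ^ 3 * X ^ 1 * z ^ 3 * t ^ 1 * f ^ 1) + (-4 * ε ^ 2 * z ^ 4 * t ^ 1 * e ^ 1), by simp only [covFour]; ring⟩

/-- The scaled value of `covSix`, up to multiples of `4`. -/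
theorem covSix_scaled (ε X z b t f e : ℤ) :
    ∃ r : ℤ, covSix b (16 * ε ^ 3 * t) (4 * ε ^ 3 * f) (ε ^ 3 * e) (2 * ε * X) z
      = ε ^ 6 * (8 * (1 * z ^ 6 * b ^ 1 * e ^ 2 + 4 * r)) :=
  ⟨(-2 * X ^ 6 * b ^ 3) + (1152 * ε ^ 3 * X ^ 6 * b ^ 1 * t ^ 1) + (-1728 * ε ^ 3 * X ^ 6 * f ^ 1) + (-96 * ε ^ 2 * X ^ 5 * z ^ 1 * b ^ 2 * t ^ 1) + (-144 * ε ^ 2 * X ^ 5 * z ^ 1 * b ^ 1 * f ^ 1) + (55296 * ε ^ 5 * X ^ 5 * z ^ 1 * t ^ 2) + (-288 * ε ^ 2 * X ^ 5 * z ^ 1 * e ^ 1) + (-30 * ε ^ 1 * X ^ 4 * z ^ 2 * b ^ 2 * f ^ 1) + (-60 * ε ^ 1 * X ^ 4 * z ^ 2 * b ^ 1 * e ^ 1) + (17280 * ε ^ 4 * X ^ 4 * z ^ 2 * t ^ 1 * f ^ 1) + (-5 * X ^ 3 * z ^ 3 * b ^ 2 * e ^ 1) + (2160 * ε ^ 3 * X ^ 3 * z ^ 3 * f ^ 2) + (-120 * ε ^ 2 * X ^ 2 * z ^ 4 * b ^ 1 * t ^ 1 * e ^ 1) + (90 * ε ^ 2 * X ^ 2 * z ^ 4 * b ^ 1 * f ^ 2) + (180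 * ε ^ 2 * X ^ 2 * z ^ 4 * f ^ 1 * e ^ 1) + (3 * ε ^ 1 * X ^ 1 * z ^ 5 * b ^ 1 * f ^ 1 * e ^ 1) + (-1152 * ε ^ 4 * X ^ 1 * z ^ 5 * t ^ 2 * e ^ 1) + (864 * ε ^ 4 * X ^ 1 * z ^ 5 * t ^ 1 * f ^ 2) + (6 * ε ^ 1 * X ^ 1 * z ^ 5 * e ^ 2) + (-72 * ε ^ 3 * z ^ 6 * t ^ 1 * f ^ 1 * e ^ 1) + (54 * ε ^ 3 * z ^ 6 * f ^ 3), by simp only [covSix]; ring⟩

theorem psiThreeForm_scaled (ε X z b t f e : ℤ) :
    psiThreeForm b (16 * ε ^ 3 * t) (4 * ε ^ 3 * f) (ε ^ 3 * e) (2 * ε * X) z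
      = ε ^ 3 * (e * z ^ 4 + 2 * (24 * ε * X ^ 4 + 4 * b * X ^ 3 * z
          + 96 * ε ^ 2 * t * X ^ 2 * z ^ 2 + 12 * ε * f * X * z ^ 3)) := by
  simp only [psiThreeForm]; ring

/-- The good supersingular points at `2` on the mod 3 family of a normalised model: `a₁` odd,
`2 ^ (3 k + 4)` divides `a₃` and `a₄`, and `2 ^ (3 k)` exactly divides `Δ`. -/
theorem flat_point (k : ℕ) (ha₁ : Odd W.a₁) (ha₃ : (2 : ℤ) ^ (3 * k + 4) ∣ W.a₃)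
    (ha₄ : (2 : ℤ) ^ (3 * k + 4) ∣ W.a₄) {δ : ℤ} (hδ : Odd δ) (hΔ : W.Δ = 2 ^ (3 * k) * δ)
    (l n : ℤ) (hn : Odd n) (hln : (2 : ℤ) ^ (k + 3) ∣ l - W.b₂ * n) :
    ∃ C4 C6 D : ℤ, famC4 W.c₄ W.c₆ l n = (4 * 2 ^ k) ^ 4 * C4 ∧
      famC6 W.c₄ W.c₆ l n = (4 * 2 ^ k) ^ 6 * C6 ∧ C4 ^ 3 - C6 ^ 2 = 64 * D ∧ Odd D ∧
      16 ∣ C4 ∧ C6 % 32 = 8 ∧ (32 ∣ C4 ↔ k ≠ 0) := by
  obtain ⟨ε, hε⟩ : ∃ ε : ℤ, ε = 2 ^ k := ⟨_, rfl⟩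
  have hE : (2 : ℤ) ^ (3 * k) = ε ^ 3 := by rw [hε, ← pow_mul]; ring_nf
  have hpow : (2 : ℤ) ^ (3 * k + 4) = 16 * ε ^ 3 := by rw [pow_add, hE]; ring
  have hε0 : ε ≠ 0 := by rw [hε]; positivity
  obtain ⟨c, hc⟩ := ha₃
  obtain ⟨d, hd⟩ := ha₄
  rw [hpow] at hc hd
  rw [hE] at hΔ
  obtain ⟨m, hm⟩ := hln
  rw [show (2 : ℤ) ^ (k + 3) = 8 * ε by rw [hε, pow_add]; ring] at hm
  have hl : l = 4 * (2 * ε * m) + W.b₂ * n := by linear_combination hm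
  have hb : Odd W.b₂ := by
    obtain ⟨a, ha⟩ := ha₁
    exact ⟨2 * (a ^ 2 + a + W.a₂), by simp only [WeierstrassCurve.b₂, ha]; ring⟩
  -- `2 ^ (3 k)` exactly divides `a₆`
  obtain ⟨t, ht⟩ : ∃ t : ℤ, W.b₄ = 16 * ε ^ 3 * t :=
    ⟨2 * d + W.a₁ * c, by simp only [WeierstrassCurve.b₄, hc, hd]; ring⟩
  obtain ⟨s, hs⟩ : ∃ s : ℤ, W.b₈ = W.b₂ * W.a₆ + 16 * s * ε ^ 3 :=
    ⟨16 * ε ^ 3 * (W.a₂ * c ^ 2 - W.a₁ * c * d - d ^ 2),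
      by simp only [WeierstrassCurve.b₈, WeierstrassCurve.b₂, hc, hd]; ring⟩
  have hb6 : W.b₆ = 4 * W.a₆ + 256 * ε ^ 6 * c ^ 2 := by
    simp only [WeierstrassCurve.b₆, hc]; ring
  obtain ⟨R, hR⟩ : ∃ R : ℤ, W.Δ + W.a₆ * (W.b₂ ^ 3 + 432 * W.a₆) = 16 * ε ^ 3 * R :=
    ⟨-(W.b₂ ^ 2 * s) - 2048 * ε ^ 6 * t ^ 3 - 27 * (128 * W.a₆ * ε ^ 3 * c ^ 2
        + 4096 * ε ^ 9 * c ^ 4) + 9 * W.b₂ * t * W.b₆,
      by rw [WeierstrassCurve.Δ, hs, ht, hb6]; ring⟩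
  have ho : Odd (W.b₂ ^ 3 + 432 * W.a₆) :=
    (Odd.pow hb).add_even ⟨216 * W.a₆, by ring⟩
  have hcop : IsCoprime (ε ^ 3) (W.b₂ ^ 3 + 432 * W.a₆) := by
    rw [← hE]
    refine IsCoprime.pow_left (Int.prime_two.coprime_iff_not_dvd.mpr ?_)
    rw [← even_iff_two_dvd]
    exact Int.not_even_iff_odd.mpr ho
  obtain ⟨w, hw⟩ : ε ^ 3 ∣ W.a₆ :=
    hcop.dvd_of_dvd_mul_right ⟨16 * R - δ, by linear_combination hR - hΔ⟩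
  have hw1 : Odd w := by
    have h : δ + w * (W.b₂ ^ 3 + 432 * W.a₆) = 16 * R := by
      apply mul_left_cancel₀ (pow_ne_zero 3 hε0)
      linear_combination hR - hΔ - (W.b₂ ^ 3 + 432 * W.a₆) * hw
    have hev : Even (δ + w * (W.b₂ ^ 3 + 432 * W.a₆)) := ⟨8 * R, by rw [h]; ring⟩
    rw [Int.even_add, ← Int.not_odd_iff_even, ← Int.not_odd_iff_even, Int.odd_mul] at hev
    simpa [hδ, ho] using hev
  obtain ⟨f, hf⟩ : ∃ f : ℤ, W.b₆ = 4 * ε ^ 3 * f :=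
    ⟨w + 64 * ε ^ 3 * c ^ 2, by rw [hb6, hw]; ring⟩
  have hf1 : Odd f := by
    have h : f = w + 64 * ε ^ 3 * c ^ 2 := by
      apply mul_left_cancel₀ (mul_ne_zero (show (4 : ℤ) ≠ 0 by norm_num) (pow_ne_zero 3 hε0))
      linear_combination -hf + hb6 + 4 * hw
    rw [h]; exact hw1.add_even ⟨32 * ε ^ 3 * c ^ 2, by ring⟩
  obtain ⟨e, he, he1⟩ : ∃ e : ℤ, W.b₈ = ε ^ 3 * e ∧ Odd e :=
    ⟨W.b₂ * w + 16 * s, by rw [hs, hw]; ring, (hb.mul hw1).add_even ⟨8 * s, by ring⟩⟩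
  have hz : Odd (3 * n) := Odd.mul ⟨1, rfl⟩ hn
  have e4 := famC4_eq_covFour W (2 * ε * m) (3 * n)
  have e6 := famC6_eq_covSix W (2 * ε * m) (3 * n)
  have eD := covFour_cube_sub_covSix_sq W (2 * ε * m) (3 * n)
  rw [show 12 * (2 * ε * m) + W.b₂ * (3 * n) = 3 * l by rw [hl]; ring] at e4 e6
  rw [ht, hf, he] at e4 e6 eD
  obtain ⟨r4, q4⟩ := covFour_scaled ε m (3 * n) W.b₂ t f e
  obtain ⟨r6, q6⟩ := covSix_scaled ε m (3 * n) W.b₂ t f e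
  have qD := psiThreeForm_scaled ε m (3 * n) W.b₂ t f e
  rw [q4] at e4 eD
  rw [q6] at e6 eD
  rw [qD, hΔ] at eD
  refine ⟨16 * (1 * m ^ 4 * W.b₂ ^ 2 - 1 * m ^ 1 * (3 * n) ^ 3 * W.b₂ ^ 1 * e ^ 1
      + 9 * ε ^ 2 * (3 * n) ^ 4 * f ^ 2 + 2 * r4),
    8 * (1 * (3 * n) ^ 6 * W.b₂ ^ 1 * e ^ 2 + 4 * r6), δ * (e * (3 * n) ^ 4 + 2 * (24 * ε * m ^ 4 + 4 * W.b₂ * m ^ 3 * (3 * n)
    + 96 * ε ^ 2 * t * m ^ 2 * (3 * n) ^ 2 + 12 * ε * f * m * (3 * n) ^ 3)) ^ 3,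
    ?_, ?_, ?_, ?_, dvd_mul_right _ _, ?_, ?_⟩
  · rw [← hε]
    apply mul_left_cancel₀ (show (81 : ℤ) ≠ 0 by norm_num)
    have h81 : famC4 W.c₄ W.c₆ (3 * l) (3 * n) = 81 * famC4 W.c₄ W.c₆ l n := by
      simp only [famC4]; ring
    linear_combination e4 - h81
  · rw [← hε]
    apply mul_left_cancel₀ (show (729 : ℤ) ≠ 0 by norm_num)
    have h729 : famC6 W.c₄ W.c₆ (3 * l) (3 * n) = 729 * famC6 W.c₄ W.c₆ l n := by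
      simp only [famC6]; ring
    linear_combination e6 - h729
  · apply mul_left_cancel₀ (pow_ne_zero 12 hε0)
    linear_combination eD
  · exact hδ.mul (((he1.mul (Odd.pow hz)).add_even (even_two_mul _)).pow)
  · obtain ⟨a, ha⟩ := ha₁
    have hA : Odd ((3 * n) ^ 3 * e * W.a₁) := ((Odd.pow hz).mul he1).mul ⟨a, ha⟩
    obtain ⟨q, hq⟩ := hA
    have hmain : 1 * (3 * n) ^ 6 * W.b₂ ^ 1 * e ^ 2
        = 1 + 4 * (q ^ 2 + q + ((3 * n) ^ 3 * e) ^ 2 * W.a₂) := by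
      simp only [WeierstrassCurve.b₂]
      linear_combination ((3 * n) ^ 3 * e * W.a₁ + 2 * q + 1) * hq
    simp only [pow_one, one_mul] at hmain ⊢
    rw [hmain]; omega
  · rw [show (32 : ℤ) = 16 * 2 by norm_num, mul_dvd_mul_iff_left (by norm_num : (16 : ℤ) ≠ 0),
      ← even_iff_two_dvd]
    have hεk : Even ε ↔ k ≠ 0 := by rw [hε]; simp [parity_simps]
    rw [← hεk]
    have h3 : ¬ Even n := Int.not_even_iff_odd.mpr hn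
    have hb' : ¬ Even W.b₂ := Int.not_even_iff_odd.mpr hb
    have hf' : ¬ Even f := Int.not_even_iff_odd.mpr hf1
    have he' : ¬ Even e := Int.not_even_iff_odd.mpr he1
    simp [parity_simps, h3, hb', hf', he']
    tauto

end Fermat.Agent.TwoAdic.Semistable
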