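import Fermat.Agent.Top.Inputs
import Fermat.Agent.TwoAdic.Curve.Basic

/-!
# The named input of the route to all semistable curves
-/

set_option autoImplicit false

open WeierstrassCurve

namespace Fermat.Agent.TwoAdic.Semistable

/-- A curve with `a₂ = ±2` and irreducible mod 5 representation in the mod 3 family of a curve
that is good at `2` with `a₂ ≠ 0`. -/
def SupersingularInput : Prop := ∀ (W : WeierstrassCurve ℤ), W.Δ ≠ 0 → W.IsSemistableModel →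
  W.ModRepIsIrreducible 3 → ¬ (2 : ℤ) ∣ W.Δ → ¬ (32 : ℤ) ∣ W.c₄ →
  ∃ W₀ : WeierstrassCurve ℤ, W₀.Δ ≠ 0 ∧ W₀.IsSemistableModel ∧ ¬ (2 : ℤ) ∣ W₀.Δ ∧
    (16 : ℤ) ∣ W₀.c₄ ∧ ¬ (32 : ℤ) ∣ W₀.c₄ ∧ W₀.ModRepIsIrreducible 5 ∧
    ((3 : ℤ) ∣ W₀.Δ ↔ (3 : ℤ) ∣ W.Δ) ∧
    ∀ ℓ : ℕ, ℓ.Prime → W.IsGoodPrimeFor ℓ → W₀.IsGoodPrimeFor ℓ → ℓ ≠ 3 →
      (3 : ℤ) ∣ (W₀.apOfModel ℓ - W.apOfModel ℓ)

end Fermat.Agent.TwoAdic.Semistable
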