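import Mathlib
import Fermat.Prelude.Def_FLTPrelim_Modularity
import Fermat.Prelude.Def_FLTPrelim_ModularRep
import Fermat.Agent.Arith.Places
import Fermat.Agent.EC.Torsion.Galois
import Fermat.Agent.Mazur.Fifteen.Five
import Fermat.Agent.Mazur.Fifteen.Line

/-!
# A criterion for irreducibility of the mod 5 representation

If a semistable curve has a Galois stable subgroup of order `5`, then `A B ^ 5 = g Δ` with `g ∣ 125`
and `A, B` coprime, and `|A|`, `|B|` are of the same size when `j` is bounded. So a large prime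
dividing `Δ = Δ₀ D ^ 3 / K` through a small `D` makes the representation irreducible.
-/

set_option autoImplicit false

namespace Fermat.Agent.TwoAdic.Semistable

open WeierstrassCurve

/-- The constant bounding the ratio of `A` and `B` in terms of a bound for `j`. -/
def ratioBound (J : ℤ) : ℤ := 20 + 64 * (J + 1)

theorem exists_cofactor {c Δ A B J : ℤ} (hAB : IsCoprime A B) (hA : A ≠ 0) (hΔ : Δ ≠ 0)
    (hc : IsCoprime c Δ) (hJ0 : 0 ≤ J) (hJ : |c| ^ 3 ≤ J * |Δ|)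
    (hrel : c ^ 3 * (A * B ^ 5) = Δ * (A ^ 2 + 10 * A * B + 5 * B ^ 2) ^ 3) :
    ∃ g : ℤ, g ∣ 125 ∧ A * B ^ 5 = g * Δ ∧ |A| ^ 6 ≤ 125 * ratioBound J ^ 5 * |Δ| := by
  obtain ⟨g, hg⟩ : Δ ∣ A * B ^ 5 :=
    ((hc.pow_left (m := 3)).symm).dvd_of_dvd_mul_left ⟨_, hrel⟩
  set N := A ^ 2 + 10 * A * B + 5 * B ^ 2 with hN
  have hN3 : c ^ 3 * g = N ^ 3 := mul_left_cancel₀ hΔ (by linear_combination hrel - c ^ 3 * hg)
  have hNB : IsCoprime N B := by
    rw [hN, show A ^ 2 + 10 * A * B + 5 * B ^ 2 = A ^ 2 + (10 * A + 5 * B) * B by ring]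
    exact (hAB.pow_left (m := 2)).add_mul_right_left _
  have hgB : IsCoprime g (B ^ 5) :=
    (IsCoprime.of_isCoprime_of_dvd_left (hNB.pow_left (m := 3))
      ⟨c ^ 3, by linear_combination -hN3⟩).pow_right
  have hgA : g ∣ A := hgB.dvd_of_dvd_mul_right ⟨Δ, by linear_combination hg⟩
  have hg125 : g ∣ 125 := by
    have h1 : g ∣ N ^ 3 := ⟨c ^ 3, by linear_combination -hN3⟩
    have h2 : A ∣ N ^ 3 - 125 * B ^ 6 :=
      ⟨(A + 10 * B) * (N ^ 2 + N * (5 * B ^ 2) + (5 * B ^ 2) ^ 2), by rw [hN]; ring⟩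
    have h3 : g ∣ 125 * B ^ 6 := by
      have := dvd_sub h1 (hgA.trans h2)
      rwa [sub_sub_cancel] at this
    exact ((IsCoprime.of_isCoprime_of_dvd_left hAB hgA).pow_right (n := 6)).dvd_of_dvd_mul_right h3
  refine ⟨g, hg125, by linear_combination hg, ?_⟩
  have hg' : |g| ≤ 125 := Int.le_of_dvd (by norm_num) ((abs_dvd _ _).mpr hg125)
  have hN' : |N| ^ 3 ≤ J * (|A| * |B| ^ 5) := by
    calc |N| ^ 3 = |c| ^ 3 * |g| := by rw [← abs_pow, ← hN3, abs_mul, abs_pow]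
      _ ≤ J * |Δ| * |g| := mul_le_mul_of_nonneg_right hJ (abs_nonneg g)
      _ = J * |Δ * g| := by rw [abs_mul]; ring
      _ = J * (|A| * |B| ^ 5) := by rw [← hg, abs_mul, abs_pow]
  have ha : 1 ≤ |A| := Int.one_le_abs hA
  have hb0 : 0 ≤ |B| := abs_nonneg _
  have hK : (20 : ℤ) ≤ ratioBound J := by rw [ratioBound]; linarith
  have hK0 : 0 ≤ ratioBound J := by linarith
  have key : |A| ≤ ratioBound J * |B| := by
    by_contra hlt
    rw [not_le] at hlt
    have h20 : 20 * |B| ≤ |A| := (mul_le_mul_of_nonneg_right hK hb0).trans hlt.le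
    have hlow : |A| ^ 2 ≤ 4 * |N| := by
      have h1 := abs_sub_abs_le_abs_sub (A ^ 2) (-(10 * A * B + 5 * B ^ 2))
      rw [sub_neg_eq_add, ← add_assoc, ← hN, abs_neg] at h1
      have h2 : |10 * A * B + 5 * B ^ 2| ≤ 10 * |A| * |B| + 5 * |B| ^ 2 := by
        refine (abs_add_le _ _).trans ?_
        rw [abs_mul, abs_mul, abs_mul, abs_pow]
        norm_num
      rw [abs_pow] at h1
      nlinarith
    have h6 : |A| ^ 6 ≤ 64 * J * (|A| * |B| ^ 5) := by
      calc |A| ^ 6 = (|A| ^ 2) ^ 3 := by ring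
        _ ≤ (4 * |N|) ^ 3 := by gcongr
        _ = 64 * |N| ^ 3 := by ring
        _ ≤ 64 * (J * (|A| * |B| ^ 5)) := by linarith
        _ = _ := by ring
    have h5 : |A| ^ 5 ≤ ratioBound J * |B| ^ 5 := by
      have hh : 64 * J ≤ ratioBound J := by rw [ratioBound]; linarith
      refine le_trans ?_ (mul_le_mul_of_nonneg_right hh (by positivity))
      exact le_of_mul_le_mul_left (by linarith) (by linarith : (0 : ℤ) < |A|)
    have h4 : (ratioBound J * |B|) ^ 5 < |A| ^ 5 := pow_lt_pow_left₀ hlt (by positivity) (by norm_num)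
    have : ratioBound J * |B| ^ 5 ≤ (ratioBound J * |B|) ^ 5 := by
      rw [mul_pow]
      exact mul_le_mul_of_nonneg_right (le_self_pow₀ (by linarith) (by norm_num)) (by positivity)
    linarith
  calc |A| ^ 6 = |A| * |A| ^ 5 := by ring
    _ ≤ |A| * (ratioBound J * |B|) ^ 5 := by gcongr
    _ = ratioBound J ^ 5 * |A * B ^ 5| := by rw [abs_mul, abs_pow]; ring
    _ = ratioBound J ^ 5 * (|Δ| * |g|) := by rw [hg, abs_mul]
    _ ≤ ratioBound J ^ 5 * (|Δ| * 125) := by gcongr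
    _ = _ := by ring

theorem isCoprime_c₄_Δ {W : WeierstrassCurve ℤ} (hW : W.IsSemistableModel) :
    IsCoprime W.c₄ W.Δ := by
  rw [Int.isCoprime_iff_gcd_eq_one]
  by_contra hne
  obtain ⟨p, hp, hd⟩ := Nat.exists_prime_and_dvd hne
  exact hW p hp ((Int.natCast_dvd_natCast.mpr hd).trans (Int.gcd_dvd_right _ _))
    ((Int.natCast_dvd_natCast.mpr hd).trans (Int.gcd_dvd_left _ _))

/-- A semistable model whose discriminant is `Δ₀ D ^ 3 / K`, with bounded `j`, and a prime `P ∣ D`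
that is large compared with `D`, has irreducible mod 5 representation. -/
theorem modFive_irreducible_of_large_prime (W : WeierstrassCurve ℤ) (hΔ : W.Δ ≠ 0)
    (hW : W.IsSemistableModel) {J Δ₀ D K : ℤ} {P : ℕ} (hP : P.Prime) (hP5 : 5 < P)
    (hJ0 : 0 ≤ J) (hJ : |W.c₄| ^ 3 ≤ J * |W.Δ|) (hK : 1 ≤ K) (hrel : W.Δ * K = Δ₀ * D ^ 3)
    (hPD : (P : ℤ) ∣ D) (hPΔ : ¬ (P : ℤ) ∣ Δ₀) (hPK : ¬ (P : ℤ) ∣ K) (hD : |D| < (P : ℤ) ^ 5)
    (hbig : 125 * ratioBound J ^ 5 * |Δ₀| * |D| ^ 3 < (P : ℤ) ^ 18) :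
    W.ModRepIsIrreducible 5 := by
  classical
  by_contra hred
  set E : WeierstrassCurve ℚ := W.map (Int.castRingHom ℚ) with hE
  have hΔE : E.Δ ≠ 0 := by
    rw [hE, WeierstrassCurve.map_Δ, eq_intCast]; exact_mod_cast hΔ
  haveI : E.IsElliptic := ⟨isUnit_iff_ne_zero.2 hΔE⟩
  have := Fermat.Agent.Arith.qBar_isGalois
  obtain ⟨Q, hQ0, hQ5, hQ⟩ := Fermat.Agent.Mazur.Fifteen.exists_stable_point
    (K := AlgebraicClosure ℚ) E 5 (by norm_num)
    (Fermat.Agent.EC.Torsion.natCard_torsionBy_algebraicClosureRat E (n := 5) (by norm_num)) hred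
  obtain ⟨S, hS, h5⟩ :=
    Fermat.Agent.Mazur.Fifteen.exists_hauptmodul_five E hΔE Q hQ0 hQ5 hQ
  simp only [hE, WeierstrassCurve.map_Δ, WeierstrassCurve.map_c₄, eq_intCast] at h5
  set A := S.num with hA
  set B : ℤ := (S.den : ℤ) with hB
  have hA0 : A ≠ 0 := Rat.num_ne_zero.mpr hS
  have hB0 : B ≠ 0 := Int.natCast_ne_zero.mpr S.den_ne_zero
  have hAB : IsCoprime A B := Rat.isCoprime_num_den S
  have hSB : S * (B : ℚ) = A := by rw [hB, Int.cast_natCast]; exact Rat.mul_den_eq_num S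
  have hint : W.c₄ ^ 3 * (A * B ^ 5) = W.Δ * (A ^ 2 + 10 * A * B + 5 * B ^ 2) ^ 3 := by
    apply Int.cast_injective (α := ℚ)
    push_cast
    rw [← hSB]
    linear_combination (B : ℚ) ^ 6 * h5
  obtain ⟨g, hg, hprod, hsize⟩ := exists_cofactor hAB hA0 hΔ (isCoprime_c₄_Δ hW) hJ0 hJ hint
  have : Fact P.Prime := ⟨hP⟩
  have hPp : Prime (P : ℤ) := Nat.prime_iff_prime_int.mp hP
  have hgP : ¬ (P : ℤ) ∣ g := fun h => by
    have h125 := Int.natCast_dvd.mp (h.trans hg)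
    have := (Nat.prime_dvd_prime_iff_eq hP Nat.prime_five).mp
      (hP.dvd_of_dvd_pow (show P ∣ 5 ^ 3 by simpa using h125))
    omega
  have htot : A * B ^ 5 * K = g * Δ₀ * D ^ 3 := by rw [hprod]; linear_combination g * hrel
  have hD0 : D ≠ 0 := by
    rintro rfl
    exact mul_ne_zero (mul_ne_zero hA0 (pow_ne_zero 5 hB0)) (by omega : K ≠ 0) (by simpa using htot)
  by_cases hPB : (P : ℤ) ∣ B
  · have hPA : ¬ (P : ℤ) ∣ A := fun h => hPp.not_unit (hAB.isUnit_of_dvd' h hPB)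
    have hΔ₀0 : Δ₀ ≠ 0 := fun h => hPΔ (h ▸ dvd_zero _)
    have hg0 : g ≠ 0 := fun h => hgP (h ▸ dvd_zero _)
    have hK0 : K ≠ 0 := by linarith
    have hpow : ∀ (n : ℕ) (x : ℤ), padicValInt P (x ^ n) = n * padicValInt P x := fun n x => by
      simp [padicValInt, Int.natAbs_pow]
    have e := congrArg (padicValInt P) htot
    rw [padicValInt.mul (mul_ne_zero hA0 (pow_ne_zero 5 hB0)) hK0,
      padicValInt.mul hA0 (pow_ne_zero 5 hB0),
      padicValInt.mul (mul_ne_zero hg0 hΔ₀0) (pow_ne_zero 3 hD0), padicValInt.mul hg0 hΔ₀0,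
      hpow, hpow, padicValInt.eq_zero_of_not_dvd hPA, padicValInt.eq_zero_of_not_dvd hPK,
      padicValInt.eq_zero_of_not_dvd hgP, padicValInt.eq_zero_of_not_dvd hPΔ] at e
    have hv : 1 ≤ padicValInt P D := by
      have := ((padicValInt_dvd_iff 1 D).mp (by simpa using hPD))
      exact this.resolve_left hD0
    have h5D : (P : ℤ) ^ 5 ∣ D :=
      (pow_dvd_pow _ (show 5 ≤ padicValInt P D by omega)).trans (padicValInt_dvd D)
    have := Int.le_of_dvd (abs_pos.mpr hD0) ((dvd_abs _ _).mpr h5D)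
    linarith
  · have h3 : (P : ℤ) ^ 3 ∣ A * (B ^ 5 * K) :=
      ⟨g * Δ₀ * (D / P) ^ 3, by
        obtain ⟨d, rfl⟩ := hPD
        rw [Int.mul_ediv_cancel_left _ hPp.ne_zero]
        linear_combination htot⟩
    have hA3 : (P : ℤ) ^ 3 ∣ A := by
      refine (IsCoprime.pow_left ?_).dvd_of_dvd_mul_right h3
      exact hPp.coprime_iff_not_dvd.mpr fun h =>
        (hPp.dvd_or_dvd h).elim (fun h => hPB (hPp.dvd_of_dvd_pow h)) hPK
    have hle : ((P : ℤ) ^ 3) ^ 6 ≤ |A| ^ 6 :=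
      pow_le_pow_left₀ (by positivity) (Int.le_of_dvd (abs_pos.mpr hA0) ((dvd_abs _ _).mpr hA3)) 6
    have hΔle : |W.Δ| ≤ |Δ₀| * |D| ^ 3 := by
      rw [← abs_pow, ← abs_mul, ← hrel, abs_mul, abs_of_nonneg (by linarith : 0 ≤ K)]
      exact le_mul_of_one_le_right (abs_nonneg _) hK
    have hR : 0 ≤ 125 * ratioBound J ^ 5 := by
      have : 0 ≤ ratioBound J := by rw [ratioBound]; linarith
      positivity
    have := mul_le_mul_of_nonneg_left hΔle hR
    rw [← pow_mul, show 3 * 6 = 18 by rfl] at hle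
    linarith

end Fermat.Agent.TwoAdic.Semistable
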