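import Fermat.Agent.TwoAdic.Curve.Local

/-!
# The 2-adic class of the mod 3 family for a curve with `a₂ = 0`

For a model with good reduction at `2` and `32 ∣ c₄` the members of the mod 3 family at
`(16 x : 1)` have multiplicative reduction at `2`, and `famD / 2 ^ 10` takes every value
modulo `2 ^ 8`.
-/

set_option autoImplicit false

open WeierstrassCurve

namespace Fermat.Agent.TwoAdic.Semistable

open Curve

theorem famForms_super (α β x : ℤ) :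
    famD (32 * α) (8 * β) (16 * x) 1
        = 2 ^ 10 * (64 * x ^ 4 - 48 * α * x ^ 2 - β * x - 3 * α ^ 2) ∧
    famC4 (32 * α) (8 * β) (16 * x) 1
        = 2 ^ 8 * (β ^ 2 + 2 * (4096 * α * x ^ 4 + 256 * β * x ^ 3 + 3072 * α ^ 2 * x ^ 2
          + 32 * α * β * x - 192 * α ^ 3)) ∧
    famC6 (32 * α) (8 * β) (16 * x) 1
        = 2 ^ 12 * (-β ^ 3 + 4 * (8192 * β * x ^ 6 + 393216 * α ^ 2 * x ^ 5
          + 15360 * α * β * x ^ 4 + 320 * β ^ 2 * x ^ 3 + 1920 * α ^ 2 * β * x ^ 2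
          + 18432 * α ^ 4 * x - 24 * α * β ^ 2 * x + 144 * α ^ 3 * β)) := by
  simp only [famD, famC4, famC6]
  refine ⟨?_, ?_, ?_⟩ <;> ring

/-- `x ↦ famD (16 x : 1) / 2 ^ 10` is surjective modulo `2 ^ 8`. -/
theorem exists_value {α β : ℤ} (hβ : Odd β) (t : ℤ) :
    ∃ x : ℤ, (2 : ℤ) ^ 8 ∣ 64 * x ^ 4 - 48 * α * x ^ 2 - β * x - 3 * α ^ 2 - t := by
  let G : ℤ → ℤ := fun x => 64 * x ^ 4 - 48 * α * x ^ 2 - β * x - 3 * α ^ 2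
  have hinj : Function.Injective fun i : Fin 256 =>
      (⟨(G i % 256).toNat, by omega⟩ : Fin 256) := by
    intro i j hij
    simp only [Fin.mk.injEq] at hij
    obtain ⟨c, hc⟩ : (256 : ℤ) ∣ G i - G j := by omega
    set X : ℤ := (i : ℤ) with hX
    set Y : ℤ := (j : ℤ) with hY
    have hc' : (256 : ℤ) ∣ (X - Y) *
        (2 * (32 * (X ^ 3 + X ^ 2 * Y + X * Y ^ 2 + Y ^ 3) - 24 * α * (X + Y)) - β) :=
      ⟨c, by simp only [G] at hc; linear_combination hc⟩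
    have hodd : IsCoprime (256 : ℤ)
        (2 * (32 * (X ^ 3 + X ^ 2 * Y + X * Y ^ 2 + Y ^ 3) - 24 * α * (X + Y)) - β) := by
      rw [show (256 : ℤ) = 2 ^ 8 by norm_num]
      refine ((Int.prime_two.coprime_iff_not_dvd).mpr fun h => ?_).pow_left
      have := (dvd_sub_right (dvd_mul_right (2 : ℤ) _)).mp h
      exact (Int.two_dvd_ne_zero.mpr (Int.odd_iff.mp hβ)) this
    have := hodd.dvd_of_dvd_mul_right hc'
    exact Fin.ext (by omega)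
  obtain ⟨i, hi⟩ := (Finite.injective_iff_surjective.mp hinj) ⟨(t % 256).toNat, by omega⟩
  simp only [Fin.mk.injEq] at hi
  refine ⟨i, ?_⟩
  show (2 : ℤ) ^ 8 ∣ G i - t
  norm_num
  omega

/-- The invariants at a good prime `2` with `32 ∣ c₄`. -/
theorem exists_invariants {W : WeierstrassCurve ℤ} (h2 : ¬ (2 : ℤ) ∣ W.Δ)
    (h32 : (32 : ℤ) ∣ W.c₄) :
    ∃ α β : ℤ, W.c₄ = 32 * α ∧ W.c₆ = 8 * β ∧ β % 4 = 1 := by
  obtain ⟨α, hα⟩ := h32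
  obtain ⟨s, hs⟩ : (2 : ℤ) ∣ W.a₁ := by
    refine Int.prime_two.dvd_of_dvd_pow (n := 4) ?_
    refine ⟨16 * α - 4 * W.a₁ ^ 2 * W.a₂ - 8 * W.a₂ ^ 2 + 24 * W.a₄ + 12 * W.a₁ * W.a₃, ?_⟩
    simp only [WeierstrassCurve.c₄, WeierstrassCurve.b₂, WeierstrassCurve.b₄] at hα
    linear_combination hα
  have h3 : Odd W.a₃ := by
    rw [← Int.not_even_iff_odd, even_iff_two_dvd]
    intro h
    refine h2 ?_
    have e3 : ((W.a₃ : ℤ) : ZMod 2) = 0 := (ZMod.intCast_zmod_eq_zero_iff_dvd _ 2).mpr h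
    have e1 : ((W.a₁ : ℤ) : ZMod 2) = 0 :=
      (ZMod.intCast_zmod_eq_zero_iff_dvd _ 2).mpr ⟨s, hs⟩
    refine (ZMod.intCast_zmod_eq_zero_iff_dvd _ 2).mp ?_
    simp only [WeierstrassCurve.Δ, WeierstrassCurve.b₂, WeierstrassCurve.b₄, WeierstrassCurve.b₆,
      WeierstrassCurve.b₈]
    push_cast
    rw [e1, e3, show (4 : ZMod 2) = 0 from rfl, show (8 : ZMod 2) = 0 from rfl]
    ring
  refine ⟨α, -((s ^ 2 + W.a₂) ^ 3 * 8) + 18 * (s ^ 2 + W.a₂) * (2 * W.a₄ + W.a₁ * W.a₃)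
    - 27 * (W.a₃ ^ 2 + 4 * W.a₆), hα, ?_, ?_⟩
  · simp only [WeierstrassCurve.c₆, WeierstrassCurve.b₂, WeierstrassCurve.b₄,
      WeierstrassCurve.b₆]
    rw [hs]; ring
  · obtain ⟨q, hq⟩ := h3
    rw [hs, hq]
    ring_nf
    omega

theorem famForms_super_homog (α β x n : ℤ) :
    famD (32 * α) (8 * β) (16 * x) n
        = 2 ^ 10 * (64 * x ^ 4 - 48 * α * x ^ 2 * n ^ 2 - β * x * n ^ 3 - 3 * α ^ 2 * n ^ 4) := by
  simp only [famD]; ring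

/-- The 2-adic class for a curve with `a₂ = 0`. -/
theorem exists_super_class {W : WeierstrassCurve ℤ} (h2 : ¬ (2 : ℤ) ∣ W.Δ)
    (h32 : (32 : ℤ) ∣ W.c₄) (t : ℤ) :
    ∃ l₀ : ℤ, ∀ l n : ℤ, (2 : ℤ) ^ 16 ∣ l - l₀ → (2 : ℤ) ^ 16 ∣ n - 1 →
      ∃ g e₄ e₆ : ℤ, famD W.c₄ W.c₆ l n = 2 ^ (8 + 2) * g ∧ famC4 W.c₄ W.c₆ l n = 2 ^ 8 * e₄ ∧
        famC6 W.c₄ W.c₆ l n = 2 ^ 12 * e₆ ∧ (2 : ℤ) ^ 8 ∣ g - t ∧ Odd e₄ ∧ e₆ % 4 = 3 := by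
  obtain ⟨α, β, ha, hb, hβ⟩ := exists_invariants h2 h32
  rw [ha, hb]
  obtain ⟨x, hx⟩ := exists_value (α := α) (β := β) (Int.odd_iff.mpr (by omega)) t
  refine ⟨16 * x, fun l n hl hn => ?_⟩
  obtain ⟨-, eC4, eC6⟩ := famForms_super α β x
  have z : ∀ y : ℤ, (2 : ℤ) ^ 16 ∣ y - y := fun y => by simp
  obtain ⟨r4, hr4⟩ := famC4_congr (z (32 * α)) (z (8 * β)) hl hn
  obtain ⟨r6, hr6⟩ := famC6_congr (z (32 * α)) (z (8 * β)) hl hn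
  rw [eC4] at hr4
  rw [eC6] at hr6
  obtain ⟨x', hx'⟩ : (16 : ℤ) ∣ l := by
    have := dvd_add ((show (16 : ℤ) ∣ 2 ^ 16 by norm_num).trans hl) (dvd_mul_right 16 x)
    rwa [sub_add_cancel] at this
  subst hx'
  refine ⟨64 * x' ^ 4 - 48 * α * x' ^ 2 * n ^ 2 - β * x' * n ^ 3 - 3 * α ^ 2 * n ^ 4,
    β ^ 2 + 2 * (4096 * α * x ^ 4 + 256 * β * x ^ 3 + 3072 * α ^ 2 * x ^ 2
      + 32 * α * β * x - 192 * α ^ 3) + 2 ^ 8 * r4,
    -β ^ 3 + 4 * (8192 * β * x ^ 6 + 393216 * α ^ 2 * x ^ 5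
      + 15360 * α * β * x ^ 4 + 320 * β ^ 2 * x ^ 3 + 1920 * α ^ 2 * β * x ^ 2
      + 18432 * α ^ 4 * x - 24 * α * β ^ 2 * x + 144 * α ^ 3 * β) + 2 ^ 4 * r6,
    famForms_super_homog α β x' n, by linear_combination hr4, by linear_combination hr6, ?_, ?_, ?_⟩
  · have h12 : x' ≡ x [ZMOD 2 ^ 8] := by
      refine (Int.modEq_iff_dvd.mpr ?_).symm
      rw [← mul_sub] at hl
      exact (show (2 : ℤ) ^ 8 ∣ 2 ^ 12 by norm_num).trans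
        ((mul_dvd_mul_iff_left (show (16 : ℤ) ≠ 0 by norm_num)).mp (by norm_num at hl ⊢; exact hl))
    have h1 : n ≡ 1 [ZMOD 2 ^ 8] :=
      (Int.modEq_iff_dvd.mpr ((show (2 : ℤ) ^ 8 ∣ 2 ^ 16 by norm_num).trans hn)).symm
    have e : 64 * x' ^ 4 - 48 * α * x' ^ 2 * n ^ 2 - β * x' * n ^ 3 - 3 * α ^ 2 * n ^ 4
        ≡ 64 * x ^ 4 - 48 * α * x ^ 2 * 1 ^ 2 - β * x * 1 ^ 3 - 3 * α ^ 2 * 1 ^ 4 [ZMOD 2 ^ 8] := by
      gcongr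
    simp only [one_pow, mul_one] at e
    have := dvd_sub hx (Int.modEq_iff_dvd.mp e)
    ring_nf at this ⊢
    exact this
  · obtain ⟨q, hq⟩ : Odd (β ^ 2) := (Int.odd_iff.mpr (by omega)).pow
    rw [hq]
    refine ⟨q + (4096 * α * x ^ 4 + 256 * β * x ^ 3 + 3072 * α ^ 2 * x ^ 2
      + 32 * α * β * x - 192 * α ^ 3) + 2 ^ 7 * r4, by ring⟩
  · obtain ⟨q, hq⟩ : ∃ q, β = 4 * q + 1 := ⟨β / 4, by omega⟩
    have h3 : -β ^ 3 = 4 * (-16 * q ^ 3 - 12 * q ^ 2 - 3 * q - 1) + 3 := by rw [hq]; ring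
    omega

end Fermat.Agent.TwoAdic.Semistable
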