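import Fermat.Agent.TwoAdic.Semistable.Inputs
import Fermat.Agent.TwoAdic.Semistable.TwoClass
import Fermat.Agent.TwoAdic.Semistable.Cusp
import Fermat.Agent.TwoAdic.Curve.Main
import Fermat.Agent.Top.Modular
import Fermat.Agent.Results.S51

/-!
# Every semistable curve is modular, from the two-adic theorem

If the mod 3 representation is irreducible and the curve is multiplicative at `2` or has `a₂ = 0`,
the mod 3 family reaches a curve to which the two-adic theorem applies. If `a₂ ≠ 0` the family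
reaches a curve with `a₂ = ±2` and irreducible mod 5 representation, congruent mod 5 to a curve
multiplicative at `2`. If the mod 3 representation is reducible the 3-5 switch applies.
-/

set_option autoImplicit false

open WeierstrassCurve WeierstrassCurve.Affine

namespace Fermat.Agent.TwoAdic.Semistable

open Curve

/-- The member of the mod 3 family for a curve multiplicative at `2` or with `a₂ = 0`. -/
theorem exists_twoAdic_member [Fact (Nat.Prime 3)] {W : WeierstrassCurve ℤ} (hΔ : W.Δ ≠ 0)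
    (hW : W.IsSemistableModel) (h3 : W.ModRepIsIrreducible 3)
    (h : (2 : ℤ) ∣ W.Δ ∨ (32 : ℤ) ∣ W.c₄) :
    ∃ W' : WeierstrassCurve ℤ, IsTwoAdicCurve W' ∧ SameTrace W W' 3 ∧
      ((3 : ℤ) ∣ W'.Δ ↔ (3 : ℤ) ∣ W.Δ) := by
  by_cases h2 : (2 : ℤ) ∣ W.Δ
  · obtain ⟨W', hW', htr, h33, -, -⟩ := exists_twoAdicCurve W hΔ hW h2 h3
    exact ⟨W', hW', htr, h33⟩
  obtain ⟨W', l, n, hW', e4, e6, h33, -, -⟩ := exists_member_of_two_class W hΔ hW
    (fun l n hn => famD_ne_zero_of_irreducible hΔ h3 hn) 2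
    fun t _ => exists_super_class h2 (h.resolve_left h2) t
  refine ⟨W', hW', sameTrace_three_of_family hΔ hW'.delta_ne_zero (l := (l : ℚ)) (n := (n : ℚ))
    (t := 1 / 4) (by norm_num) ?_ ?_, h33⟩
  · have := congrArg (Int.cast : ℤ → ℚ) e4
    simp only [famC4] at this ⊢
    push_cast at this
    linear_combination this / 256
  · have := congrArg (Int.cast : ℤ → ℚ) e6
    simp only [famC6] at this ⊢
    push_cast at this
    linear_combination this / 4096

/-- The traces on 5-torsion of the curve reached by the switch followed by nothing else. -/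
theorem exists_switched [Fact (Nat.Prime 5)] {W : WeierstrassCurve ℤ} (hΔ : W.Δ ≠ 0)
    (hW : W.IsSemistableModel) :
    ∃ W' : WeierstrassCurve ℤ, W'.Δ ≠ 0 ∧ W'.IsSemistableModel ∧ W'.ModRepIsIrreducible 3 ∧
      SameTrace W W' 5 ∧ ((2 : ℤ) ∣ W.Δ → (2 : ℤ) ∣ W'.Δ) ∧
      ((5 : ℤ) ∣ W'.Δ ↔ (5 : ℤ) ∣ W.Δ) := by
  obtain ⟨W', h0, hs, hirr, htr, hv, hbad, -⟩ := exists_switch_of_semistable W hΔ hW
  refine ⟨W', h0, hs, hirr, htr, hbad 2 Nat.prime_two, ?_⟩
  have h5 := hv 5 (by norm_num)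
  have := padicValInt_dvd_iff (p := 5) 1 W'.Δ
  have := padicValInt_dvd_iff (p := 5) 1 W.Δ
  simp_all

/-- Modularity at the conductor level for a curve multiplicative at `2` or with `a₂ = 0`. -/
theorem exact_of_member (htwo : Top.TwoAdicInput) (hlift : Top.LiftingSquarefreeInput)
    {W : WeierstrassCurve ℤ} (hΔ : W.Δ ≠ 0) (hW : W.IsSemistableModel)
    (h3 : W.ModRepIsIrreducible 3) (h : (2 : ℤ) ∣ W.Δ ∨ (32 : ℤ) ∣ W.c₄) :
    Mlc1IsModularModelOfExactConductorLevel W := by
  have : Fact (Nat.Prime 3) := ⟨Nat.prime_three⟩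
  obtain ⟨W', hW', htr, h33⟩ := exists_twoAdic_member hΔ hW h3 h
  obtain ⟨N, hN, hsq, hsupp, hmod⟩ := htwo W' hW'
  exact hlift 3 (Or.inl rfl) W hΔ hW h3 N hN hsq ((hsupp 3 Nat.prime_three).trans h33)
    (Top.residually_modular_of_congr Nat.prime_three hsupp hmod
      fun ℓ hℓ hg hg' hne => by exact_mod_cast apOfModel_congr_of_sameTrace htr hℓ hg hg' hne)

/-- Modularity at the conductor level when the mod 3 representation is irreducible. -/
theorem exact_of_irreducible_three (hE : SupersingularInput) (htwo : Top.TwoAdicInput)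
    (hlift : Top.LiftingSquarefreeInput) {W : WeierstrassCurve ℤ} (hΔ : W.Δ ≠ 0)
    (hW : W.IsSemistableModel) (h3 : W.ModRepIsIrreducible 3) :
    Mlc1IsModularModelOfExactConductorLevel W := by
  by_cases h : (2 : ℤ) ∣ W.Δ ∨ (32 : ℤ) ∣ W.c₄
  · exact exact_of_member htwo hlift hΔ hW h3 h
  rw [not_or] at h
  have : Fact (Nat.Prime 5) := ⟨Nat.prime_five⟩
  obtain ⟨W₀, h0, hs0, h20, h160, h320, h50, h30, hcong⟩ := hE W hΔ hW h3 h.1 h.2
  obtain ⟨W₁, h1, hs1, h21, htr1, h51⟩ := exists_multiplicative_switch h0 hs0 h20 h160 h320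
  obtain ⟨W₂, h2', hs2, h32, htr2, h22, h52⟩ := exists_switched h1 hs1
  obtain ⟨N, hN, hsq, hsupp, hmod⟩ := exact_of_member htwo hlift h2' hs2 h32 (Or.inl (h22 h21))
  obtain ⟨N₀, hN₀, hsq₀, hsupp₀, hmod₀⟩ := hlift 5 (Or.inr rfl) W₀ h0 hs0 h50 N hN hsq
    ((hsupp 5 Nat.prime_five).trans (h52.trans h51))
    (Top.residually_modular_of_congr Nat.prime_five hsupp hmod fun ℓ hℓ hg hg' hne => by
      exact_mod_cast apOfModel_congr_of_sameTrace (htr1.trans htr2) hℓ hg hg' hne)
  exact hlift 3 (Or.inl rfl) W hΔ hW h3 N₀ hN₀ hsq₀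
    ((hsupp₀ 3 Nat.prime_three).trans h30)
    (Top.residually_modular_of_congr Nat.prime_three hsupp₀ hmod₀ hcong)

/-- Every semistable model is modular at its conductor level. -/
theorem exact_of_semistable (hE : SupersingularInput) (htwo : Top.TwoAdicInput)
    (hlift : Top.LiftingSquarefreeInput) {W : WeierstrassCurve ℤ} (hΔ : W.Δ ≠ 0)
    (hW : W.IsSemistableModel) : Mlc1IsModularModelOfExactConductorLevel W := by
  rcases Results.S51.result W hΔ hW with h3 | h5
  · exact exact_of_irreducible_three hE htwo hlift hΔ hW h3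
  · have : Fact (Nat.Prime 5) := ⟨Nat.prime_five⟩
    obtain ⟨W', h0, hs, h3, htr, -, h55⟩ := exists_switched hΔ hW
    obtain ⟨N, hN, hsq, hsupp, hmod⟩ := exact_of_irreducible_three hE htwo hlift h0 hs h3
    exact hlift 5 (Or.inr rfl) W hΔ hW h5 N hN hsq ((hsupp 5 Nat.prime_five).trans h55)
      (Top.residually_modular_of_congr Nat.prime_five hsupp hmod fun ℓ hℓ hg hg' hne => by
        exact_mod_cast apOfModel_congr_of_sameTrace htr hℓ hg hg' hne)

/-- The statement of milestone 54. -/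
theorem isModular_of_semistable (hE : SupersingularInput) (htwo : Top.TwoAdicInput)
    (hlift : Top.LiftingSquarefreeInput) (W : WeierstrassCurve ℤ) (hΔ : W.Δ ≠ 0)
    (hW : W.IsSemistableModel) : (W.map (Int.castRingHom ℚ)).IsModular := by
  obtain ⟨N, hN, -, -, hmod⟩ := exact_of_semistable hE htwo hlift hΔ hW
  exact ⟨W, ⟨1, by rw [one_smul]⟩, N, hN, hmod⟩

/-- The third form of milestone 42. -/
theorem residuallyModular_three (hE : SupersingularInput) (htwo : Top.TwoAdicInput)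
    (hlift : Top.LiftingSquarefreeInput) (W : WeierstrassCurve ℤ) (hΔ : W.Δ ≠ 0)
    (hW : W.IsSemistableModel) :
    ∃ M : ℕ, 0 < M ∧ W.IsResiduallyModularOfLevel 3 M ∧
      (∀ q : ℕ, q.Prime → q ≠ 3 → ¬ q ^ 3 ∣ M) ∧
      (3 ^ 2 ∣ M →
        ∀ A : ValuationSubring (AlgebraicClosure ℚ), A.LiesOverPrime 3 →
          ∀ x : Submodule.torsionBy ℤ
              ((W.map (Int.castRingHom ℚ))⁄(AlgebraicClosure ℚ)).Point (3 : ℕ),
            (∀ σ ∈ A.inertiaSubgroupIn ℚ, σ • x = x) → x = 0) := by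
  obtain ⟨N, hN, hsq, hsupp, hmod⟩ := exact_of_semistable hE htwo hlift hΔ hW
  have hsq' : ∀ q : ℕ, q.Prime → ¬ q ^ 2 ∣ N := fun q hq h =>
    hq.not_isUnit (hsq q (by rwa [← sq]))
  refine ⟨N, hN, Top.residually_modular_of_congr Nat.prime_three hsupp hmod
    (fun ℓ _ _ _ _ => by simp), fun q hq _ h => hsq' q hq ((pow_dvd_pow q (by norm_num)).trans h),
    fun h => absurd h (hsq' 3 Nat.prime_three)⟩

end Fermat.Agent.TwoAdic.Semistable
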