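import Mathlib
import Fermat.Agent.TwoAdic.Curve.Model

/-!
# Integral models with good supersingular reduction at `2` and prescribed `c₄`, `c₆`
-/

set_option autoImplicit false

namespace Fermat.Agent.TwoAdic.Semistable

open WeierstrassCurve Curve

/-- An integral model with invariants `c4`, `c6`, `Δ`, when `16 ∣ c4` and `c6 ≡ 8 (mod 32)`. -/
theorem exists_model_supersingular {c4 c6 Δ : ℤ} (hrel : c4 ^ 3 - c6 ^ 2 = 1728 * Δ)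
    (h4 : (16 : ℤ) ∣ c4) (h6 : c6 % 32 = 8) (h3 : ∃ B, IsThreeAdmissible B c4 c6) :
    ∃ W : WeierstrassCurve ℤ, W.c₄ = c4 ∧ W.c₆ = c6 ∧ W.Δ = Δ := by
  obtain ⟨B₃, h31, h32⟩ := h3
  obtain ⟨a, ha⟩ : ∃ a, a = 7 * B₃ := ⟨_, rfl⟩
  set B := 4 * a with hB
  have b3 : (27 : ℤ) ∣ B - B₃ := ⟨B₃, by rw [hB, ha]; ring⟩
  have f2 : (3 : ℤ) ∣ B ^ 2 - c4 := by
    have := dvd_add h31 (((show (3 : ℤ) ∣ 27 by norm_num).trans b3).mul_right (B + B₃))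
    rwa [show B₃ ^ 2 - c4 + (B - B₃) * (B + B₃) = B ^ 2 - c4 by ring] at this
  have f3 : (27 : ℤ) ∣ B ^ 3 - 3 * B * c4 - 2 * c6 := by
    have := dvd_add h32 (b3.mul_right (B ^ 2 + B * B₃ + B₃ ^ 2 - 3 * c4))
    rwa [show B₃ ^ 3 - 3 * B₃ * c4 - 2 * c6 + (B - B₃) * (B ^ 2 + B * B₃ + B₃ ^ 2 - 3 * c4)
      = B ^ 3 - 3 * B * c4 - 2 * c6 by ring] at this
  obtain ⟨q, hq⟩ := h4
  have g2 : (16 : ℤ) ∣ B ^ 2 - c4 := ⟨a ^ 2 - q, by rw [hB, hq]; ring⟩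
  obtain ⟨j, hj⟩ : ∃ j, c6 = 8 + 32 * j := ⟨c6 / 32, by omega⟩
  have g3 : (64 : ℤ) ∣ B ^ 3 - 3 * B * c4 - 2 * c6 - 432 :=
    ⟨a ^ 3 - 3 * a * q - j - 7, by rw [hB, hq, hj]; ring⟩
  obtain ⟨k, hk⟩ : (48 : ℤ) ∣ B ^ 2 - c4 := by omega
  obtain ⟨e, he⟩ : (1728 : ℤ) ∣ B ^ 3 - 3 * B * c4 - 2 * c6 - 432 := by omega
  have e4 : (⟨0, a, 1, k, e⟩ : WeierstrassCurve ℤ).c₄ = c4 := by
    simp only [WeierstrassCurve.c₄, WeierstrassCurve.b₂, WeierstrassCurve.b₄]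
    linear_combination hk
  have e6 : (⟨0, a, 1, k, e⟩ : WeierstrassCurve ℤ).c₆ = c6 := by
    apply mul_left_cancel₀ (show (2 : ℤ) ≠ 0 by norm_num)
    simp only [WeierstrassCurve.c₆, WeierstrassCurve.b₂, WeierstrassCurve.b₄, WeierstrassCurve.b₆]
    linear_combination he - 3 * B * hk
  refine ⟨⟨0, a, 1, k, e⟩, e4, e6, ?_⟩
  apply mul_left_cancel₀ (show (1728 : ℤ) ≠ 0 by norm_num)
  rw [WeierstrassCurve.c_relation, e4, e6, hrel]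

end Fermat.Agent.TwoAdic.Semistable
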