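import Mathlib
import Fermat.Agent.TwoAdic.Curve.Local
import Fermat.Agent.TwoAdic.Semistable.FamilyPoint

/-!
# Classes of parameters with `a₂ = ± 2`

For a model with good reduction at `2` and `32 ∤ c₄`, that is `a₂ ≠ 0`, some parameters of the
mod 3 family give, after scaling by a power of `2`, invariants `16 * odd` and `8 (mod 32)`.
-/

set_option autoImplicit false

namespace Fermat.Agent.TwoAdic.Semistable

open WeierstrassCurve Curve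

variable (W : WeierstrassCurve ℤ)

/-- A model with `a₁` odd can be moved to one with `a₃ ≡ a₄ ≡ 0 (mod 16)`. -/
theorem exists_normalised (ha₁ : Odd W.a₁) :
    ∃ V : WeierstrassCurve ℤ, V.c₄ = W.c₄ ∧ V.c₆ = W.c₆ ∧ V.Δ = W.Δ ∧ Odd V.a₁ ∧
      (16 : ℤ) ∣ V.a₃ ∧ (16 : ℤ) ∣ V.a₄ := by
  set a₁ : ZMod 16 := (W.a₁ : ZMod 16)
  set a₂ : ZMod 16 := (W.a₂ : ZMod 16)
  set a₃ : ZMod 16 := (W.a₃ : ZMod 16)
  set a₄ : ZMod 16 := (W.a₄ : ZMod 16)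
  have hodd : ∀ x : ZMod 16, IsUnit (1 + 2 * x) := fun x =>
    IsNilpotent.isUnit_one_add ⟨4, by rw [mul_pow, show (2 : ZMod 16) ^ 4 = 0 from rfl, zero_mul]⟩
  obtain ⟨c, hc⟩ := ha₁
  have hc' : a₁ = 1 + 2 * (c : ZMod 16) := by
    simp only [a₁, hc]; push_cast; ring
  obtain ⟨i, hi⟩ := (hodd (c : ZMod 16)).exists_left_inv
  rw [← hc'] at hi
  have hf : Function.Bijective fun r : ZMod 16 =>
      a₁ * (a₃ + r * a₁) + 2 * (a₄ + 2 * r * a₂ + 3 * r ^ 2) := by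
    rw [← Finite.injective_iff_bijective]
    intro r r' h
    have e : (r - r') * (1 + 2 * (2 * (c : ZMod 16) ^ 2 + 2 * c + 2 * a₂ + 3 * (r + r'))) = 0 := by
      linear_combination h - (r - r') * (a₁ + 1 + 2 * (c : ZMod 16)) * hc'
    exact sub_eq_zero.mp ((hodd _).mul_left_eq_zero.mp e)
  obtain ⟨r, hr⟩ := hf.2 0
  simp only at hr
  obtain ⟨R, rfl⟩ := ZMod.intCast_surjective r
  set t := i * (a₄ + 2 * (R : ZMod 16) * a₂ + 3 * (R : ZMod 16) ^ 2) with ht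
  obtain ⟨T, hT⟩ := ZMod.intCast_surjective t
  have h4 : a₄ + 2 * (R : ZMod 16) * a₂ + 3 * (R : ZMod 16) ^ 2 - t * a₁ = 0 := by
    linear_combination -(a₁) * ht
      - (a₄ + 2 * (R : ZMod 16) * a₂ + 3 * (R : ZMod 16) ^ 2) * hi
  have h3 : a₃ + (R : ZMod 16) * a₁ + 2 * t = 0 := by
    linear_combination i * hr - (a₃ + (R : ZMod 16) * a₁) * hi + 2 * ht
  refine ⟨(⟨1, R, 0, T⟩ : VariableChange ℤ) • W, ?_, ?_, ?_, ?_, ?_, ?_⟩
  · simp [variableChange_c₄]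
  · simp [variableChange_c₆]
  · simp [variableChange_Δ]
  · exact ⟨c, by simp [variableChange_a₁, hc]⟩
  · apply (ZMod.intCast_zmod_eq_zero_iff_dvd _ 16).mp
    simp only [variableChange_a₃, inv_one, Units.val_one, one_pow, one_mul]
    push_cast
    rw [hT]
    exact h3
  · apply (ZMod.intCast_zmod_eq_zero_iff_dvd _ 16).mp
    simp only [variableChange_a₄, inv_one, Units.val_one, one_pow, one_mul]
    push_cast
    rw [hT]
    linear_combination h4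

variable {W}

theorem odd_a₁_of_odd_c₄ (h : Odd W.c₄) : Odd W.a₁ := by
  by_contra he
  obtain ⟨a, ha⟩ := Int.not_odd_iff_even.mp he
  exact Int.not_even_iff_odd.mpr h
    ⟨8 * (a ^ 2 + W.a₂) ^ 2 - 12 * (2 * W.a₄ + 2 * a * W.a₃),
      by simp only [WeierstrassCurve.c₄, WeierstrassCurve.b₂, WeierstrassCurve.b₄, ha]; ring⟩

theorem invariants_of_even_a₁ (h2 : ¬ (2 : ℤ) ∣ W.Δ) (he : Even W.a₁) :
    (16 : ℤ) ∣ W.c₄ ∧ W.c₆ % 32 = 8 := by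
  obtain ⟨a, ha⟩ := he
  obtain ⟨b, hb⟩ : Odd W.a₃ := by
    by_contra hev
    obtain ⟨b, hb⟩ := Int.not_odd_iff_even.mp hev
    refine h2 ⟨-(8 * (a ^ 2 + W.a₂) ^ 2) * W.b₈ - 4 * W.b₄ ^ 3 - 216 * (b ^ 2 + W.a₆) ^ 2
      + 72 * (a ^ 2 + W.a₂) * W.b₄ * (b ^ 2 + W.a₆), ?_⟩
    simp only [WeierstrassCurve.Δ, WeierstrassCurve.b₂, WeierstrassCurve.b₆, ha, hb]
    ring
  refine ⟨⟨(a ^ 2 + W.a₂) ^ 2 - 3 * (W.a₄ + a * W.a₃),
    by simp only [WeierstrassCurve.c₄, WeierstrassCurve.b₂, WeierstrassCurve.b₄, ha]; ring⟩, ?_⟩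
  have : W.c₆ = 8 + 32 * (-2 * (a ^ 2 + W.a₂) ^ 3
      + 9 * (a ^ 2 + W.a₂) * (W.a₄ + a * W.a₃) - 7 - 27 * (b ^ 2 + b + W.a₆)) := by
    simp only [WeierstrassCurve.c₆, WeierstrassCurve.b₂, WeierstrassCurve.b₄,
      WeierstrassCurve.b₆, ha, hb]
    ring
  omega

/-- The invariants of a parameter with good supersingular reduction at `2` and `a₂ ≠ 0`. -/
def IsSupersingularPoint (W : WeierstrassCurve ℤ) (e : ℕ) (l n : ℤ) : Prop :=
  ∃ C4 C6 D : ℤ, famC4 W.c₄ W.c₆ l n = (2 ^ e) ^ 4 * C4 ∧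
    famC6 W.c₄ W.c₆ l n = (2 ^ e) ^ 6 * C6 ∧ C4 ^ 3 - C6 ^ 2 = 64 * D ∧ Odd D ∧
    16 ∣ C4 ∧ ¬ 32 ∣ C4 ∧ C6 % 32 = 8

/-- For each odd `u` a class of `l` modulo `32` gives supersingular points `(l, 2 ^ i * u)`. -/
theorem exists_supersingular_class (h2 : ¬ (2 : ℤ) ∣ W.Δ) (h32 : ¬ (32 : ℤ) ∣ W.c₄) :
    ∃ e i : ℕ, ∀ u : ℤ, Odd u → ∃ l₀ : ℤ, Odd l₀ ∧
      ∀ l : ℤ, (32 : ℤ) ∣ l - l₀ → IsSupersingularPoint W e l (2 ^ i * u) := by
  by_cases hodd : Odd W.c₄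
  · obtain ⟨V, e4, e6, eΔ, hV1, hV3, hV4⟩ := exists_normalised W (odd_a₁_of_odd_c₄ hodd)
    have hδ : Odd V.Δ := by
      rw [← Int.not_even_iff_odd, even_iff_two_dvd, eΔ]; exact h2
    refine ⟨2, 0, fun u hu => ⟨V.b₂ * u, Odd.mul ?_ hu, fun l hl => ?_⟩⟩
    · obtain ⟨a, ha⟩ := hV1
      exact ⟨2 * (a ^ 2 + a + V.a₂), by simp only [WeierstrassCurve.b₂, ha]; ring⟩
    obtain ⟨C4, C6, D, q4, q6, qD, hD, h16, h6, hk⟩ :=
      flat_point V 0 hV1 (by simpa using hV3) (by simpa using hV4) hδ (by simp) l u hu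
        (by simpa using (show (8 : ℤ) ∣ 32 by norm_num).trans hl)
    refine ⟨C4, C6, D, ?_, ?_, qD, hD, h16, fun h => (hk.mp h) rfl, h6⟩
    · simpa [e4, e6] using q4
    · simpa [e4, e6] using q6
  · have hev : Even W.a₁ := by
      by_contra ho
      obtain ⟨a, ha⟩ := Int.not_even_iff_odd.mp ho
      refine hodd ⟨2 * (1 + 4 * (a ^ 2 + a + W.a₂)) * (a ^ 2 + a + W.a₂)
        + 2 * (a ^ 2 + a + W.a₂) - 12 * (2 * W.a₄ + (2 * a + 1) * W.a₃), ?_⟩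
      simp only [WeierstrassCurve.c₄, WeierstrassCurve.b₂, WeierstrassCurve.b₄, ha]
      ring
    obtain ⟨h16, h6⟩ := invariants_of_even_a₁ h2 hev
    refine ⟨0, 5, fun u _ => ⟨1, odd_one, fun l hl => ?_⟩⟩
    have hn : (32 : ℤ) ∣ 2 ^ 5 * u - 0 := ⟨u, by ring⟩
    have c4 := famC4_congr (m := (32 : ℤ)) (a := W.c₄) (a' := W.c₄) (b := W.c₆) (b' := W.c₆)
      (by simp) (by simp) hl hn
    have c6 := famC6_congr (m := (32 : ℤ)) (a := W.c₄) (a' := W.c₄) (b := W.c₆) (b' := W.c₆)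
      (by simp) (by simp) hl hn
    have cD := famD_congr (m := (32 : ℤ)) (a := W.c₄) (a' := W.c₄) (b := W.c₆) (b' := W.c₆)
      (by simp) (by simp) hl hn
    rw [famC4_one_zero] at c4
    rw [famC6_one_zero] at c6
    rw [famD_one_zero] at cD
    refine ⟨famC4 W.c₄ W.c₆ l (2 ^ 5 * u), famC6 W.c₄ W.c₆ l (2 ^ 5 * u), 27 * W.Δ * famD W.c₄ W.c₆ l (2 ^ 5 * u) ^ 3, by norm_num, by norm_num, ?_, ?_, ?_, ?_, ?_⟩
    · rw [famC4_cube_sub_famC6_sq, ← WeierstrassCurve.c_relation]; ring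
    · have hΔ : Odd W.Δ := by
        rw [← Int.not_even_iff_odd, even_iff_two_dvd]; exact h2
      have hD : Odd (famD W.c₄ W.c₆ l (2 ^ 5 * u)) := by
        obtain ⟨q, hq⟩ := cD
        exact ⟨16 * q, by linarith⟩
      exact ((Odd.mul ⟨13, rfl⟩ hΔ)).mul hD.pow
    · omega
    · omega
    · omega

end Fermat.Agent.TwoAdic.Semistable
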