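import Mathlib
import Fermat.Agent.Switch.Family
import Fermat.Agent.TwoAdic.Curve.Local
import Fermat.Agent.TwoAdic.Curve.ThreeIso
import Fermat.Agent.TwoAdic.Curve.Trace
import Fermat.Agent.TwoAdic.Semistable.Irreducible
import Fermat.Agent.TwoAdic.Semistable.ModelTwo
import Fermat.Agent.TwoAdic.Semistable.SupersingularClass

/-!
# A congruent supersingular curve with irreducible mod 5 representation

A semistable model, good at `2` with `a₂ ≠ 0` and irreducible mod 3 representation, has the same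
mod 3 traces as some semistable model with `a₂ = ± 2` and irreducible mod 5 representation.
-/

set_option autoImplicit false

namespace Fermat.Agent.TwoAdic.Semistable

open WeierstrassCurve Curve

/-- Infinitely many primes divide values of `famD`. -/
theorem exists_large_prime_dvd_famD {a b n : ℤ} (ha : a ≠ 0) (hn : n ≠ 0) (N : ℕ) :
    ∃ P : ℕ, P.Prime ∧ N < P ∧ ∃ r : ℤ, (P : ℤ) ∣ famD a b r n := by
  set c := -(3 * a ^ 2 * n ^ 4) with hc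
  have hc0 : c ≠ 0 := by
    rw [hc, neg_ne_zero]
    exact mul_ne_zero (mul_ne_zero (by norm_num) (pow_ne_zero _ ha)) (pow_ne_zero _ hn)
  set g : ℤ → ℤ := fun x => x ^ 3 - 6 * a * n ^ 2 * x - 8 * b * n ^ 3 with hg
  have hf : ∀ x, famD a b x n = c + x * g x := fun x => by simp only [famD, hc, hg]; ring
  set m : ℕ := (max N 3).factorial
  have hm : (6 : ℤ) ≤ m := by
    exact_mod_cast (show (3 : ℕ).factorial ≤ m from Nat.factorial_le (le_max_right _ _))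
  set t : ℤ := |6 * a * n ^ 2| + |8 * b * n ^ 3| + 2 with ht
  have hgne : g (c * m * t) ≠ 0 := by
    intro h0
    simp only [hg] at h0
    generalize hx : c * m * t = x at h0
    have hxt : t ≤ |x| := by
      have h1 : 0 ≤ t := by positivity
      rw [← hx, abs_mul, abs_mul, Nat.abs_cast, abs_of_nonneg h1]
      exact le_mul_of_one_le_left h1 (one_le_mul_of_one_le_of_one_le (Int.one_le_abs hc0) (by linarith))
    have e : |x| ^ 3 ≤ |6 * a * n ^ 2| * |x| + |8 * b * n ^ 3| := by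
      rw [← abs_pow, ← abs_mul, show x ^ 3 = 6 * a * n ^ 2 * x + 8 * b * n ^ 3 by linarith]
      exact abs_add_le _ _
    have h1 := abs_nonneg (6 * a * n ^ 2)
    have h2 := abs_nonneg (8 * b * n ^ 3)
    have hsq : t * |x| ≤ |x| ^ 2 := by
      rw [sq]; exact mul_le_mul_of_nonneg_right hxt (abs_nonneg x)
    nlinarith
  set z : ℤ := 1 + m * t * g (c * m * t) with hz
  have hval : famD a b (c * m * t) n = c * z := by rw [hf, hz]; ring
  have hz1 : z.natAbs ≠ 1 := by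
    intro h
    have h2 : |(m : ℤ) * (t * g (c * m * t))| ≤ 2 := by
      rw [show (m : ℤ) * (t * g (c * m * t)) = z - 1 by rw [hz]; ring]
      rcases Int.natAbs_eq z with h' | h' <;> rw [h'] <;> simp [h]
    rw [abs_mul, abs_of_nonneg (by linarith : (0 : ℤ) ≤ m)] at h2
    have := Int.one_le_abs (mul_ne_zero (show t ≠ 0 by positivity) hgne)
    nlinarith
  obtain ⟨P, hP, hPz⟩ := Nat.exists_prime_and_dvd hz1
  refine ⟨P, hP, ?_, c * m * t, hval ▸ (Int.natCast_dvd.mpr hPz).mul_left c⟩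
  by_contra hle
  have hdm : (P : ℤ) ∣ m := Int.natCast_dvd_natCast.mpr
    (Nat.dvd_factorial hP.pos ((not_lt.mp hle).trans (le_max_left _ _)))
  have hone := dvd_sub (Int.natCast_dvd.mpr hPz) (hdm.mul_right (t * g (c * m * t)))
  rw [show z - m * (t * g (c * m * t)) = 1 by rw [hz]; ring] at hone
  exact (Nat.prime_iff_prime_int.mp hP).not_dvd_one hone

theorem famD_abs_bounds (a b : ℤ) {l n : ℤ} (hn : 1 ≤ n) (hl : 1 ≤ l)
    (hbig : 2 * (6 * |a| + 8 * |b| + 3 * a ^ 2) * n ^ 4 ≤ l ^ 2) :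
    l ^ 4 ≤ 2 * |famD a b l n| ∧ |famD a b l n| ≤ 2 * l ^ 4 := by
  have h : |famD a b l n - l ^ 4| ≤ (6 * |a| + 8 * |b| + 3 * a ^ 2) * n ^ 4 * l ^ 2 := by
    calc |famD a b l n - l ^ 4|
        = |(-(6 * a * l ^ 2 * n ^ 2)) + (-(8 * b * l * n ^ 3)) + -(3 * a ^ 2 * n ^ 4)| := by
          congr 1; simp only [famD]; ring
      _ ≤ |6 * a * l ^ 2 * n ^ 2| + |8 * b * l * n ^ 3| + |3 * a ^ 2 * n ^ 4| := by
          refine (abs_add_three _ _ _).trans ?_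
          simp only [abs_neg, le_refl]
      _ = 6 * |a| * (l ^ 2 * n ^ 2) + 8 * |b| * (l * n ^ 3) + 3 * a ^ 2 * n ^ 4 := by
          have hl' : |l| = l := abs_of_pos (by linarith)
          have hn' : |n| = n := abs_of_pos (by linarith)
          simp only [abs_mul, abs_pow, hl', hn', sq_abs]
          norm_num
          ring
      _ ≤ 6 * |a| * (l ^ 2 * n ^ 4) + 8 * |b| * (l ^ 2 * n ^ 4) + 3 * a ^ 2 * (l ^ 2 * n ^ 4) := by
          have h1 : n ^ 2 ≤ n ^ 4 := pow_le_pow_right₀ hn (by norm_num)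
          have h2 : n ^ 3 ≤ n ^ 4 := pow_le_pow_right₀ hn (by norm_num)
          have h3 : l ≤ l ^ 2 := le_self_pow₀ hl (by norm_num)
          have h4 : (1 : ℤ) ≤ l ^ 2 := one_le_pow₀ hl
          gcongr
          exact le_mul_of_one_le_left (by positivity) h4
      _ = _ := by ring
  have h2 : 2 * ((6 * |a| + 8 * |b| + 3 * a ^ 2) * n ^ 4 * l ^ 2) ≤ l ^ 4 := by
    have := mul_le_mul_of_nonneg_right hbig (sq_nonneg l)
    linarith
  rw [abs_le] at h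
  constructor
  · linarith [le_abs_self (famD a b l n)]
  · rw [abs_le]; constructor <;> nlinarith

theorem famC4_abs_le (a b : ℤ) {l n : ℤ} (hn : 0 ≤ n) (hnl : n ≤ l) :
    |famC4 a b l n|
      ≤ (|a| + 4 * |b| + 6 * a ^ 2 + 4 * |a * b| + |4 * b ^ 2 - 3 * a ^ 3|) * l ^ 4 := by
  have hl : 0 ≤ l := hn.trans hnl
  have e1 : l ^ 3 * n ≤ l ^ 4 := by rw [pow_succ l 3]; gcongr
  have e2 : l ^ 2 * n ^ 2 ≤ l ^ 4 := by rw [show l ^ 4 = l ^ 2 * l ^ 2 by ring]; gcongr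
  have e3 : l * n ^ 3 ≤ l ^ 4 := by rw [show l ^ 4 = l * l ^ 3 by ring]; gcongr
  have e4 : n ^ 4 ≤ l ^ 4 := by gcongr
  calc |famC4 a b l n|
      ≤ |a * l ^ 4| + |4 * b * l ^ 3 * n| + |6 * a ^ 2 * l ^ 2 * n ^ 2| + |4 * a * b * l * n ^ 3|
          + |(4 * b ^ 2 - 3 * a ^ 3) * n ^ 4| := by
        refine (abs_add_le _ _).trans (add_le_add ?_ le_rfl)
        exact (abs_add_le _ _).trans (add_le_add (abs_add_three _ _ _) le_rfl)
    _ = |a| * l ^ 4 + 4 * |b| * (l ^ 3 * n) + 6 * a ^ 2 * (l ^ 2 * n ^ 2)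
          + 4 * |a * b| * (l * n ^ 3) + |4 * b ^ 2 - 3 * a ^ 3| * n ^ 4 := by
        simp only [abs_mul, abs_pow, abs_of_nonneg hl, abs_of_nonneg hn, sq_abs]
        norm_num
        ring
    _ ≤ |a| * l ^ 4 + 4 * |b| * l ^ 4 + 6 * a ^ 2 * l ^ 4 + 4 * |a * b| * l ^ 4
          + |4 * b ^ 2 - 3 * a ^ 3| * l ^ 4 := by
        gcongr
    _ = _ := by ring

theorem member_semistable (W W₀ : WeierstrassCurve ℤ) (hW : W.IsSemistableModel) {u K c l n : ℤ}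
    (h3u : (3 : ℤ) ∣ u) (hΔu : W.Δ ∣ u) (hlcop : IsCoprime l n) (hodd : ¬ (2 : ℤ) ∣ W₀.Δ)
    (hΔK : W₀.Δ * K = W.Δ * famD W.c₄ W.c₆ l n ^ 3) (hC : famC4 W.c₄ W.c₆ l n = c * W₀.c₄)
    (d4 : u ∣ W₀.c₄ - W.c₄)
    (hp3 : ∀ p : ℕ, p.Prime → (p : ℤ) ∣ u → (p : ℤ) ∣ W₀.Δ → (p : ℤ) ∣ W.Δ) :
    W₀.IsSemistableModel := by
  intro p hp hpΔ hpc
  have hpp := Nat.prime_iff_prime_int.mp hp
  by_cases hpu : (p : ℤ) ∣ u
  · refine hW p hp (hp3 p hp hpu hpΔ) ?_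
    have := dvd_sub hpc (hpu.trans d4)
    rwa [sub_sub_cancel] at this
  have : Fact p.Prime := ⟨hp⟩
  have hp2 : p ≠ 2 := by rintro rfl; exact hodd hpΔ
  have hp3' : p ≠ 3 := by rintro rfl; exact hpu h3u
  have hpΔW : ¬ (p : ℤ) ∣ W.Δ := fun h => hpu (h.trans hΔu)
  have hpD : (p : ℤ) ∣ famD W.c₄ W.c₆ l n := hpp.dvd_of_dvd_pow
    ((hpp.dvd_or_dvd (hΔK ▸ dvd_mul_of_dvd_left hpΔ K)).resolve_left hpΔW)
  have hpf : (p : ℤ) ∣ famC4 W.c₄ W.c₆ l n := hC ▸ hpc.mul_left _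
  have z : ∀ m : ℤ, (p : ℤ) ∣ m → (m : ZMod p) = 0 :=
    fun m h => (ZMod.intCast_zmod_eq_zero_iff_dvd m p).mpr h
  have n2 : (2 : ZMod p) ≠ 0 := fun h => hp2 ((Nat.prime_dvd_prime_iff_eq hp Nat.prime_two).mp
    ((ZMod.natCast_eq_zero_iff 2 p).mp (by exact_mod_cast h)))
  have n3 : (3 : ZMod p) ≠ 0 := fun h => hp3' ((Nat.prime_dvd_prime_iff_eq hp Nat.prime_three).mp
    ((ZMod.natCast_eq_zero_iff 3 p).mp (by exact_mod_cast h)))
  have zD : famD (W.c₄ : ZMod p) W.c₆ l n = 0 := by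
    have h := map_famD (Int.castRingHom (ZMod p)) W.c₄ W.c₆ l n
    simp only [Int.coe_castRingHom] at h
    rw [← h]; exact z _ hpD
  have zC : famC4 (W.c₄ : ZMod p) W.c₆ l n = 0 := by
    have h := map_famC4 (Int.castRingHom (ZMod p)) W.c₄ W.c₆ l n
    simp only [Int.coe_castRingHom] at h
    rw [← h]; exact z _ hpf
  have zn : (n : ZMod p) ≠ 0 := by
    intro h0
    have hl0 : (l : ZMod p) = 0 := by
      simp only [famD, h0] at zD
      simpa using zD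
    exact hpp.not_unit (hlcop.isUnit_of_dvd' ((ZMod.intCast_zmod_eq_zero_iff_dvd l p).mp hl0)
      ((ZMod.intCast_zmod_eq_zero_iff_dvd n p).mp h0))
  have zl : famDl (W.c₄ : ZMod p) W.c₆ l n = 0 := by
    have h := famC4_hessian (W.c₄ : ZMod p) W.c₆ l n
    rw [zD, zC] at h
    have h' : (3 : ZMod p) * famDl (W.c₄ : ZMod p) W.c₆ l n ^ 2 = 0 := by linear_combination h
    exact pow_eq_zero_iff two_ne_zero |>.mp ((mul_eq_zero.mp h').resolve_left n3)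
  have hab := eq_of_famD_famDl n2 n3 zn zD zl
  have h1728 : (1728 : ZMod p) * (W.Δ : ZMod p) = 0 := by
    have h := congrArg (Int.cast : ℤ → ZMod p) W.c_relation
    push_cast at h
    rw [h, hab, sub_self]
  have n1728 : (1728 : ZMod p) ≠ 0 := by
    rw [show (1728 : ZMod p) = 2 ^ 6 * 3 ^ 3 by norm_num]
    exact mul_ne_zero (pow_ne_zero _ n2) (pow_ne_zero _ n3)
  exact hpΔW ((ZMod.intCast_zmod_eq_zero_iff_dvd _ p).mp
    ((mul_eq_zero.mp h1728).resolve_left n1728))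

theorem member_irreducible (W₀ : WeierstrassCurve ℤ) (hΔ₀ : W₀.Δ ≠ 0) (hss : W₀.IsSemistableModel)
    {C C₁ Δ D K c l : ℤ} {P : ℕ} (hP : P.Prime) (hP5 : (5 : ℤ) < P) (hΔ : Δ ≠ 0) (hK : 1 ≤ K)
    (hΔK : W₀.Δ * K = Δ * D ^ 3) (hC : 0 ≤ C) (hc : 1 ≤ c) (h4 : |c * W₀.c₄| ≤ C * l ^ 4)
    (hlow : l ^ 4 ≤ 2 * |D|) (hup : |D| ≤ 2 * l ^ 4) (hl0 : 0 ≤ l) (hl : l ≤ C₁ * P)
    (hPD : (P : ℤ) ∣ D) (hPK : ¬ (P : ℤ) ∣ K) (hPΔ : |Δ| < P) (hP1 : 2 * C₁ ^ 4 < P)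
    (hP2 : 125 * ratioBound (8 * C ^ 3 * K) ^ 5 * |Δ| * 8 * C₁ ^ 12 < P) :
    W₀.ModRepIsIrreducible 5 := by
  have hDle : |D| ≤ 2 * C₁ ^ 4 * (P : ℤ) ^ 4 := by
    have h := pow_le_pow_left₀ hl0 hl 4
    rw [mul_pow] at h
    linarith
  have hJ0 : 0 ≤ 8 * C ^ 3 * K := mul_nonneg (by positivity) (by linarith)
  have hPpos : (0 : ℤ) < P := by linarith
  refine modFive_irreducible_of_large_prime W₀ hΔ₀ hss hP (by exact_mod_cast hP5)
    hJ0 ?_ hK hΔK hPD ?_ hPK ?_ ?_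
  · have h1 : |W₀.c₄| ≤ C * l ^ 4 := by
      refine le_trans ?_ h4
      rw [abs_mul, abs_of_nonneg (by linarith : 0 ≤ c)]
      exact le_mul_of_one_le_left (abs_nonneg _) hc
    have h2 : (l ^ 4) ^ 3 ≤ 8 * (|W₀.Δ| * K) := by
      calc (l ^ 4) ^ 3 ≤ (2 * |D|) ^ 3 := pow_le_pow_left₀ (by positivity) hlow 3
        _ = 8 * |D| ^ 3 := by ring
        _ ≤ 8 * (|Δ| * |D| ^ 3) := by
            linarith [le_mul_of_one_le_left (pow_nonneg (abs_nonneg D) 3) (Int.one_le_abs hΔ)]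
        _ = 8 * (|W₀.Δ| * K) := by
            rw [← abs_pow, ← abs_mul, ← hΔK, abs_mul, abs_of_nonneg (by linarith : 0 ≤ K)]
    calc |W₀.c₄| ^ 3 ≤ (C * l ^ 4) ^ 3 := pow_le_pow_left₀ (abs_nonneg _) h1 3
      _ = C ^ 3 * (l ^ 4) ^ 3 := by ring
      _ ≤ C ^ 3 * (8 * (|W₀.Δ| * K)) := mul_le_mul_of_nonneg_left h2 (by positivity)
      _ = _ := by ring
  · intro h
    linarith [Int.le_of_dvd (abs_pos.mpr hΔ) ((dvd_abs _ _).mpr h)]
  · calc |D| ≤ 2 * C₁ ^ 4 * (P : ℤ) ^ 4 := hDle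
      _ < P * (P : ℤ) ^ 4 := mul_lt_mul_of_pos_right hP1 (by positivity)
      _ = (P : ℤ) ^ 5 := by ring
  · have hB : 0 ≤ 125 * ratioBound (8 * C ^ 3 * K) ^ 5 * |Δ| := by
      have : 0 ≤ ratioBound (8 * C ^ 3 * K) := by rw [ratioBound]; linarith
      positivity
    calc 125 * ratioBound (8 * C ^ 3 * K) ^ 5 * |Δ| * |D| ^ 3
        ≤ 125 * ratioBound (8 * C ^ 3 * K) ^ 5 * |Δ| * (2 * C₁ ^ 4 * (P : ℤ) ^ 4) ^ 3 :=
          mul_le_mul_of_nonneg_left (pow_le_pow_left₀ (abs_nonneg _) hDle 3) hB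
      _ = (125 * ratioBound (8 * C ^ 3 * K) ^ 5 * |Δ| * 8 * C₁ ^ 12) * (P : ℤ) ^ 12 := by ring
      _ < P * (P : ℤ) ^ 12 := mul_lt_mul_of_pos_right hP2 (by positivity)
      _ ≤ (P : ℤ) ^ 6 * (P : ℤ) ^ 12 :=
          mul_le_mul_of_nonneg_right (le_self_pow₀ (by linarith) (by norm_num)) (by positivity)
      _ = (P : ℤ) ^ 18 := by ring

theorem exists_supersingular_five (W : WeierstrassCurve ℤ) (hΔ : W.Δ ≠ 0)
    (hW : W.IsSemistableModel) (h3 : W.ModRepIsIrreducible 3) (h2 : ¬ (2 : ℤ) ∣ W.Δ)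
    (h32 : ¬ (32 : ℤ) ∣ W.c₄) :
    ∃ W₀ : WeierstrassCurve ℤ, W₀.Δ ≠ 0 ∧ W₀.IsSemistableModel ∧ ¬ (2 : ℤ) ∣ W₀.Δ ∧
      (16 : ℤ) ∣ W₀.c₄ ∧ ¬ (32 : ℤ) ∣ W₀.c₄ ∧ W₀.ModRepIsIrreducible 5 ∧
      ((3 : ℤ) ∣ W₀.Δ ↔ (3 : ℤ) ∣ W.Δ) ∧
      ∀ ℓ : ℕ, ℓ.Prime → W.IsGoodPrimeFor ℓ → W₀.IsGoodPrimeFor ℓ → ℓ ≠ 3 →
        (3 : ℤ) ∣ W₀.apOfModel ℓ - W.apOfModel ℓ := by
  have ha : W.c₄ ≠ 0 := Switch.c₄_ne_zero_of_semistable hΔ hW
  obtain ⟨e, i, hclass⟩ := exists_supersingular_class h2 h32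
  set u : ℤ := 27 * |W.Δ| with hu
  have hu1 : 1 ≤ u := by rw [hu]; linarith [Int.one_le_abs hΔ]
  have huodd : Odd u := Odd.mul ⟨13, rfl⟩
    (by rw [← Int.not_even_iff_odd, even_abs, even_iff_two_dvd]; exact h2)
  obtain ⟨l₀, hl₀odd, hpoint⟩ := hclass u huodd
  set n : ℤ := 2 ^ i * u with hn
  have hn1 : 1 ≤ n := one_le_mul_of_one_le_of_one_le (one_le_pow₀ (by norm_num)) hu1
  have hu2 : ¬ (2 : ℤ) ∣ u := by
    rw [← even_iff_two_dvd]; exact Int.not_even_iff_odd.mpr huodd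
  have hcop2 : IsCoprime ((2 : ℤ) ^ e) u :=
    (Int.prime_two.coprime_iff_not_dvd.mpr hu2).pow_left
  obtain ⟨L₀, hL32, hLu⟩ : ∃ L : ℤ, (32 : ℤ) ∣ L - l₀ ∧ u ∣ L - 2 ^ e := by
    obtain ⟨x, y, hxy⟩ : IsCoprime (32 : ℤ) u := by
      rw [show (32 : ℤ) = 2 ^ 5 by norm_num]
      exact (Int.prime_two.coprime_iff_not_dvd.mpr hu2).pow_left
    exact ⟨l₀ * (y * u) + 2 ^ e * (x * 32), ⟨-l₀ * x + 2 ^ e * x, by linear_combination l₀ * hxy⟩,
      ⟨l₀ * y - 2 ^ e * y, by linear_combination (2 : ℤ) ^ e * hxy⟩⟩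
  -- the constants
  set C := |W.c₄| + 4 * |W.c₆| + 6 * W.c₄ ^ 2 + 4 * |W.c₄ * W.c₆|
    + |4 * W.c₆ ^ 2 - 3 * W.c₄ ^ 3| with hC
  have hC0 : 0 ≤ C := by positivity
  set K : ℤ := ((2 : ℤ) ^ e) ^ 12 with hK
  have hK1 : 1 ≤ K := one_le_pow₀ (one_le_pow₀ (by norm_num))
  set J : ℤ := 8 * C ^ 3 * K with hJdef
  set C₁ : ℤ := |L₀| + 2 * (32 * u) + 1 with hC₁
  have hC₁1 : 1 ≤ C₁ := by rw [hC₁]; linarith [abs_nonneg L₀, hu1]
  set Q : ℤ := 2 * (6 * |W.c₄| + 8 * |W.c₆| + 3 * W.c₄ ^ 2) * n ^ 4 with hQ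
  set R : ℤ := 125 * ratioBound J ^ 5 * |W.Δ| * 8 * C₁ ^ 12 with hR
  set Z : ℤ := 6 + |L₀| + |Q| + n + 32 * u + 2 * C₁ ^ 4 + |R| + |W.Δ| with hZ
  obtain ⟨P, hP, hPbig, r, hr⟩ :=
    exists_large_prime_dvd_famD (b := W.c₆) ha (show n ≠ 0 by linarith) Z.natAbs
  have hPZ : Z < (P : ℤ) := lt_of_le_of_lt Int.le_natAbs (by exact_mod_cast hPbig)
  have := abs_nonneg L₀
  have := abs_nonneg Q
  have := abs_nonneg R
  have := abs_nonneg W.Δ
  have : 0 ≤ 2 * C₁ ^ 4 := by positivity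
  have hPp : Prime (P : ℤ) := Nat.prime_iff_prime_int.mp hP
  have hP2 : ¬ (P : ℤ) ∣ 2 := fun h => by
    have := Int.le_of_dvd (by norm_num) h; linarith
  have hPM : IsCoprime (32 * u) (P : ℤ) := by
    refine ((hPp.coprime_iff_not_dvd).mpr fun h => ?_).symm
    have := Int.le_of_dvd (by linarith) h
    linarith
  obtain ⟨x, y, hxy⟩ := hPM
  set s : ℤ := P + ((r - L₀) * x) % P with hs
  have hs0 : (P : ℤ) ≤ s := by
    have := Int.emod_nonneg ((r - L₀) * x) hPp.ne_zero; linarith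
  have hs1 : s ≤ 2 * P := by
    have := Int.emod_lt_of_pos ((r - L₀) * x) (show (0 : ℤ) < P by linarith); linarith
  set l := L₀ + 32 * u * s with hl
  have hlr : (P : ℤ) ∣ l - r := by
    refine ⟨32 * u - 32 * u * ((r - L₀) * x / P) - (r - L₀) * y, ?_⟩
    linear_combination (r - L₀) * hxy + hl + 32 * u * hs
      + 32 * u * Int.emod_def ((r - L₀) * x) P
  have hl32 : (32 : ℤ) ∣ l - l₀ := by
    rw [show l - l₀ = (L₀ - l₀) + 32 * (u * s) by rw [hl]; ring]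
    exact dvd_add hL32 (dvd_mul_right _ _)
  have hlu : u ∣ l - 2 ^ e := by
    rw [show l - 2 ^ e = (L₀ - 2 ^ e) + u * (32 * s) by rw [hl]; ring]
    exact dvd_add hLu (dvd_mul_right _ _)
  have hlup : l ≤ C₁ * P := by
    have h1 : 32 * u * s ≤ 32 * u * (2 * P) := mul_le_mul_of_nonneg_left hs1 (by linarith)
    have h2 : |L₀| ≤ |L₀| * P := le_mul_of_one_le_right (abs_nonneg _) (by linarith)
    rw [hl, hC₁]; linarith [le_abs_self L₀]
  have hllow : (P : ℤ) ≤ l := by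
    have h1 : 2 * s ≤ 32 * u * s := mul_le_mul_of_nonneg_right (by linarith) (by linarith)
    rw [hl]; linarith [neg_abs_le L₀]
  have hlcop : IsCoprime l n := by
    refine IsCoprime.mul_right ?_ ?_
    · refine IsCoprime.pow_right (Int.prime_two.coprime_iff_not_dvd.mpr fun h => ?_).symm
      have h1 := dvd_sub h ((show (2 : ℤ) ∣ 32 by norm_num).trans hl32)
      rw [sub_sub_cancel, ← even_iff_two_dvd] at h1
      exact Int.not_even_iff_odd.mpr hl₀odd h1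
    · obtain ⟨k, hk⟩ := hlu
      rw [show l = 2 ^ e + k * u by linear_combination hk]
      exact hcop2.add_mul_right_left k
  obtain ⟨C4, C6, D₀, q4, q6, qD, hD₀, h16, h32', h6⟩ := hpoint l hl32
  set D := famD W.c₄ W.c₆ l n with hD
  have hrel : (27 : ℤ) * W.Δ * D ^ 3 = D₀ * K := by
    apply mul_left_cancel₀ (show (64 : ℤ) ≠ 0 by norm_num)
    have e0 := famC4_cube_sub_famC6_sq W.c₄ W.c₆ l n
    rw [q4, q6, ← hD] at e0
    rw [hK]
    linear_combination -e0 + ((2 : ℤ) ^ e) ^ 12 * qD + D ^ 3 * W.c_relation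
  have h27K : IsCoprime (27 : ℤ) K := by
    rw [hK, ← pow_mul, show (27 : ℤ) = 3 ^ 3 by norm_num]
    exact (IsCoprime.pow (by rw [Int.isCoprime_iff_gcd_eq_one]; rfl))
  obtain ⟨Δ', hΔ'⟩ : (27 : ℤ) ∣ D₀ :=
    h27K.dvd_of_dvd_mul_right ⟨W.Δ * D ^ 3, by linear_combination -hrel⟩
  have hΔK : Δ' * K = W.Δ * D ^ 3 :=
    mul_left_cancel₀ (show (27 : ℤ) ≠ 0 by norm_num) (by linear_combination -hrel - K * hΔ')
  -- congruences at the primes of `u`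
  have hn0 : u ∣ n - 0 := by rw [sub_zero, hn]; exact dvd_mul_left _ _
  have c4 := famC4_congr (m := u) (a := W.c₄) (a' := W.c₄) (b := W.c₆) (b' := W.c₆)
    (by simp) (by simp) hlu hn0
  have c6 := famC6_congr (m := u) (a := W.c₄) (a' := W.c₄) (b := W.c₆) (b' := W.c₆)
    (by simp) (by simp) hlu hn0
  have cD := famD_congr (m := u) (a := W.c₄) (a' := W.c₄) (b := W.c₆) (b' := W.c₆)
    (by simp) (by simp) hlu hn0
  rw [q4, show famC4 W.c₄ W.c₆ (2 ^ e) 0 = (2 ^ e) ^ 4 * W.c₄ by simp only [famC4]; ring,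
    ← mul_sub] at c4
  rw [q6, show famC6 W.c₄ W.c₆ (2 ^ e) 0 = (2 ^ e) ^ 6 * W.c₆ by simp only [famC6]; ring,
    ← mul_sub] at c6
  rw [← hD, show famD W.c₄ W.c₆ (2 ^ e) 0 = (2 ^ e) ^ 4 by simp only [famD]; ring] at cD
  have d4 : u ∣ C4 - W.c₄ := (hcop2.symm.pow_right).dvd_of_dvd_mul_left c4
  have d6 : u ∣ C6 - W.c₆ := (hcop2.symm.pow_right).dvd_of_dvd_mul_left c6
  have h27u : (27 : ℤ) ∣ u := dvd_mul_right _ _
  obtain ⟨W₀, e4, e6, eΔ⟩ := exists_model_supersingular (c4 := C4) (c6 := C6) (Δ := Δ')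
    (by linear_combination qD + 64 * hΔ') h16 h6
    ⟨W.b₂, (isThreeAdmissible_b₂ W).congr (h27u.trans d4) (h27u.trans d6)⟩
  have hD0bd := famD_abs_bounds W.c₄ W.c₆ (l := l) hn1 (by linarith) (by
    rw [← hQ]
    exact (le_abs_self Q).trans ((by linarith : |Q| ≤ l).trans (le_self_pow₀ (by linarith) two_ne_zero)))
  rw [← hD] at hD0bd
  have hDne : D ≠ 0 := by
    intro h
    rw [h, abs_zero, mul_zero] at hD0bd
    linarith [one_le_pow₀ (M₀ := ℤ) (a := l) (by linarith) (n := 4), hD0bd.1]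
  have hΔ'0 : Δ' ≠ 0 := fun h => mul_ne_zero hΔ (pow_ne_zero 3 hDne) (by rw [← hΔK, h, zero_mul])
  have hodd' : ¬ (2 : ℤ) ∣ Δ' := by
    intro h
    exact Int.not_even_iff_odd.mpr hD₀ (even_iff_two_dvd.mpr (hΔ' ▸ h.mul_left 27))
  have hp3 : ∀ p : ℕ, p.Prime → (p : ℤ) ∣ u → (p : ℤ) ∣ Δ' → (p : ℤ) ∣ W.Δ := fun p hp hpu hpd => by
    have hpp := Nat.prime_iff_prime_int.mp hp
    rcases hpp.dvd_or_dvd (hΔK ▸ hpd.mul_right K) with h | h
    · exact h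
    · exfalso
      have h4 := dvd_sub (hpp.dvd_of_dvd_pow h) (hpu.trans cD)
      rw [sub_sub_cancel] at h4
      exact hpp.not_unit ((hcop2).isUnit_of_dvd' (hpp.dvd_of_dvd_pow h4) hpu)
  have hss : W₀.IsSemistableModel :=
    member_semistable W W₀ hW (K := K) (c := (2 ^ e) ^ 4)
      ((show (3 : ℤ) ∣ 27 by norm_num).trans h27u) (((dvd_abs _ _).mpr dvd_rfl).mul_left 27)
      hlcop (by rwa [eΔ]) (by rw [eΔ]; exact hΔK) (by rw [e4]; exact q4)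
      (by rw [e4]; exact d4) (by rw [eΔ]; exact hp3)
  have h3iff : ((3 : ℤ) ∣ W₀.Δ ↔ (3 : ℤ) ∣ W.Δ) := by
    rw [eΔ]
    constructor
    · exact hp3 3 Nat.prime_three ((show ((3 : ℕ) : ℤ) ∣ 27 by norm_num).trans h27u)
    · intro h
      refine (Int.prime_three.dvd_or_dvd (hΔK ▸ h.mul_right (D ^ 3))).resolve_right fun hK3 => ?_
      exact Int.prime_three.not_unit (h27K.isUnit_of_dvd' (by norm_num) hK3)
  refine ⟨W₀, by rwa [eΔ], hss, by rwa [eΔ], by rwa [e4], by rwa [e4], ?_, h3iff, ?_⟩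
  · refine member_irreducible W₀ (by rwa [eΔ]) hss (C := C) (C₁ := C₁) (c := (2 ^ e) ^ 4)
      (K := K) (l := l) (D := D) hP (by linarith) hΔ hK1 (by rw [eΔ]; exact hΔK) hC0
      (one_le_pow₀ (one_le_pow₀ (by norm_num))) ?_ hD0bd.1 hD0bd.2 (by linarith) hlup ?_ ?_ ?_ ?_ ?_
    · rw [e4, ← q4]; exact famC4_abs_le W.c₄ W.c₆ (by linarith) (by linarith)
    · have hfc := famD_congr (m := (P : ℤ)) (a := W.c₄) (a' := W.c₄) (b := W.c₆) (b' := W.c₆)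
        (n := n) (n' := n) (by simp) (by simp) hlr (by simp)
      rw [← hD] at hfc
      have := dvd_add hfc hr
      rwa [sub_add_cancel] at this
    · exact fun h => hP2 (hPp.dvd_of_dvd_pow (hPp.dvd_of_dvd_pow h))
    · linarith
    · linarith
    · rw [← hJdef, ← hR]
      linarith [le_abs_self R]
  · intro ℓ hℓ hg hg' hne
    have : Fact (Nat.Prime 3) := ⟨Nat.prime_three⟩
    have h2e : ((2 : ℚ) ^ e) ≠ 0 := pow_ne_zero _ two_ne_zero
    have hst : SameTrace W W₀ 3 := by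
      refine sameTrace_three_of_family hΔ (by rwa [eΔ]) (l := (l : ℚ)) (n := (n : ℚ))
        (t := ((2 : ℚ) ^ e)⁻¹) (inv_ne_zero h2e) ?_ ?_
      · have h := map_famC4 (Int.castRingHom ℚ) W.c₄ W.c₆ l n
        simp only [Int.coe_castRingHom] at h
        rw [e4, ← h, q4]; push_cast; field_simp
      · have h := map_famC6 (Int.castRingHom ℚ) W.c₄ W.c₆ l n
        simp only [Int.coe_castRingHom] at h
        rw [e6, ← h, q6]; push_cast; field_simp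
    exact_mod_cast apOfModel_congr_of_sameTrace hst hℓ hg hg' hne

end Fermat.Agent.TwoAdic.Semistable
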