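import Fermat.Agent.TwoAdic.Semistable.Main
import Fermat.Agent.TwoAdic.Semistable.Supersingular

/-!
# Modularity of semistable curves from the two-adic theorem and lifting at `3` and `5`
-/

set_option autoImplicit false

open WeierstrassCurve WeierstrassCurve.Affine

namespace Fermat.Agent.TwoAdic.Semistable

theorem supersingularInput : SupersingularInput :=
  fun W hΔ hW h3 h2 h32 => exists_supersingular_five W hΔ hW h3 h2 h32

/-- Every semistable model is modular at its conductor level. -/
theorem exact_semistable (htwo : Top.TwoAdicInput) (hlift : Top.LiftingSquarefreeInput)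
    {W : WeierstrassCurve ℤ} (hΔ : W.Δ ≠ 0) (hW : W.IsSemistableModel) :
    Mlc1IsModularModelOfExactConductorLevel W :=
  exact_of_semistable supersingularInput htwo hlift hΔ hW

/-- Milestone 54 from the two named inputs. -/
theorem semistable_isModular (htwo : Top.TwoAdicInput) (hlift : Top.LiftingSquarefreeInput)
    (W : WeierstrassCurve ℤ) (hΔ : W.Δ ≠ 0) (hW : W.IsSemistableModel) :
    (W.map (Int.castRingHom ℚ)).IsModular :=
  isModular_of_semistable supersingularInput htwo hlift W hΔ hW

end Fermat.Agent.TwoAdic.Semistable
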